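/-
Program C (S36), node A7s (SUB-ANNULUS LEVELS), ring side (helper5): the local ring of a blow-up
chart of a base-ring-free node.

`O` a noetherian local domain with a node `NodeCore q u v δ e p1 p2` (`S0/AnnulusN2Level`:
`𝔪 = (q, u, v)`, `u v = q ^ e δ`, `δ` a unit, branches `p1 ∋ q, u` and `p2 ∋ q, v`), `0 < a < e`,
`δ'` a unit, `B = O[Y]` a domain with `u Y = q ^ a δ'` (so `v δ' = q ^ (e - a) δ Y`): the chart of
the blow-up of the node which contains the strict transform of the branch `p2`.  This is the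
base-ring-free version of `BR/BlowUpPoints` (no `ResidueHyp`, a unit in `u v = q ^ e δ`), with
the reduction to the exceptional component replaced by its elementary form

  `htr : ∀ P : O[X], aeval Y P = 0 → ∀ i, P.coeff i ∈ 𝔪`

(the kernel of `O[T] → B` lies in `𝔪[T]`; true as soon as some valuation ring `V ⊇ B` of an
overfield dominates `O` and `Y` has transcendental residue, e.g. the ring of a circle of the
annulus).

* `ChartCore.rho : B →+* k'[X]`, `rhoTwo : B →+* O ⧸ p2`; `ker_rho = (q, u)` (the exceptional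
  component), `ker_rhoTwo = (q, Y)` (the old branch `p2`), `ker_inf : (q, u) ⊓ (q, Y) = (q)`;
* `ptIdeal = (q, u, Y)` is maximal with residue field `O ⧸ 𝔪` (`ker_chi`, `ptIdeal_isMaximal`,
  `exists_sub_mem_ptIdeal`);
* for every localisation `L` of `B` at `(q, u, Y)`: noetherian local domain (`loc_*`),
  `loc_nodeCore : NodeCore q u Y δ' a ((q, u) L) ((q, Y) L)`, `loc_inf` (`(q) L` is the
  intersection of the two branches), `loc_vertical`, `loc_reduced`, `loc_residue`, and
  `loc_isIntegrallyClosed` (`O` integrally closed ⇒ `L` integrally closed, by `BR3/NormalCrit`).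
-/
import Mathlib
import Fermat.Agent.BR.S0.AnnulusN2Level
import Fermat.Agent.BR3.NormalCrit

set_option autoImplicit false
set_option linter.unusedSectionVars false
set_option linter.style.haveILetI false

namespace Fermat.Agent.BR3.SubAnnChart

open IsLocalRing Polynomial Fermat.Agent.BR.S0.AnnulusN2Level

section Chart

variable {O B : Type*} [CommRing O] [IsDomain O] [IsLocalRing O] [IsNoetherianRing O]
  [CommRing B] [IsDomain B] [Algebra O B]

/-- The chart `B = O[Y]`, `u Y = q ^ a δ'`, of the blow-up of a node `u v = q ^ e δ` of a noetherian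
local domain, in base-ring-free form. -/
structure ChartCore (q u v δ : O) (e : ℕ) (p1 p2 : Ideal O) (a : ℕ) (δ' : O) (Y : B) : Prop where
  node : NodeCore q u v δ e p1 p2
  hq0 : q ≠ 0
  inj : Function.Injective (algebraMap O B)
  pos : 0 < a
  lt : a < e
  hδ' : IsUnit δ'
  hY : algebraMap O B u * Y = algebraMap O B (q ^ a * δ')
  gen : Algebra.adjoin O {Y} = ⊤
  htr : ∀ P : O[X], aeval Y P = 0 → ∀ i, P.coeff i ∈ maximalIdeal O

namespace ChartCore

variable {q u v δ : O} {e : ℕ} {p1 p2 : Ideal O} {a : ℕ} {δ' : O} {Y : B}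

theorem u_ne_zero (h : ChartCore q u v δ e p1 p2 a δ' Y) : u ≠ 0 := fun h0 =>
  h.node.hu2 (h0 ▸ p2.zero_mem)

theorem uB_ne_zero (h : ChartCore q u v δ e p1 p2 a δ' Y) : algebraMap O B u ≠ 0 := fun h0 =>
  h.u_ne_zero (h.inj (h0.trans (map_zero _).symm))

theorem qB_ne_zero (h : ChartCore q u v δ e p1 p2 a δ' Y) : algebraMap O B q ≠ 0 := fun h0 =>
  h.hq0 (h.inj (h0.trans (map_zero _).symm))

/-- `v δ' = q ^ (e - a) δ Y` -/
theorem v_mul (h : ChartCore q u v δ e p1 p2 a δ' Y) :
    algebraMap O B (v * δ') = algebraMap O B (q ^ (e - a) * δ) * Y := by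
  apply mul_left_cancel₀ h.uB_ne_zero
  have h1 : algebraMap O B u * (algebraMap O B (q ^ (e - a) * δ) * Y) =
      algebraMap O B (q ^ (e - a) * δ) * (algebraMap O B u * Y) := by ring
  rw [h1, h.hY, ← map_mul, ← map_mul]
  congr 1
  have h2 : u * (v * δ') = (u * v) * δ' := by ring
  rw [h2, h.node.huv]
  have h3 : q ^ e = q ^ (e - a) * q ^ a := by
    rw [← pow_add, Nat.sub_add_cancel h.lt.le]
  rw [h3]
  ring

/-- `v ∈ q B` -/
theorem vB_mem (h : ChartCore q u v δ e p1 p2 a δ' Y) :
    algebraMap O B v ∈ Ideal.span {algebraMap O B q} := by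
  obtain ⟨d, hd⟩ := h.hδ'.exists_right_inv
  have h1 : algebraMap O B v = algebraMap O B (v * δ') * algebraMap O B d := by
    rw [← map_mul, mul_assoc, hd, mul_one]
  have hea : e - a = e - a - 1 + 1 := (Nat.sub_add_cancel (Nat.sub_pos_of_lt h.lt)).symm
  rw [h1, h.v_mul, hea, pow_succ, map_mul, map_mul]
  have h2 : algebraMap O B (q ^ (e - a - 1)) * algebraMap O B q * algebraMap O B δ * Y *
      algebraMap O B d = (algebraMap O B (q ^ (e - a - 1)) * algebraMap O B δ * Y *
      algebraMap O B d) * algebraMap O B q := by ring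
  rw [h2]
  exact Ideal.mul_mem_left _ _ (Ideal.mem_span_singleton_self _)

/-- every element of `B` is a polynomial in `Y` -/
theorem exists_aeval (h : ChartCore q u v δ e p1 p2 a δ' Y) (y : B) :
    ∃ P : O[X], y = aeval Y P := by
  have hy : y ∈ Algebra.adjoin O {Y} := by rw [h.gen]; exact Algebra.mem_top
  rw [Algebra.adjoin_singleton_eq_range_aeval] at hy
  obtain ⟨P, hP⟩ := hy
  exact ⟨P, hP.symm⟩

theorem aeval_surjective (h : ChartCore q u v δ e p1 p2 a δ' Y) :
    Function.Surjective (aeval Y : O[X] →ₐ[O] B) := fun y => by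
  obtain ⟨P, hP⟩ := h.exists_aeval y
  exact ⟨P, hP.symm⟩

theorem isNoetherianRing (h : ChartCore q u v δ e p1 p2 a δ' Y) : IsNoetherianRing B :=
  isNoetherianRing_of_surjective O[X] B ((aeval Y : O[X] →ₐ[O] B) : O[X] →+* B)
    h.aeval_surjective

/-- `u ^ N Y ^ i = (q ^ a δ') ^ i u ^ (N - i)` for `i ≤ N` -/
theorem uB_pow_mul_Y_pow (h : ChartCore q u v δ e p1 p2 a δ' Y) {i N : ℕ} (hi : i ≤ N) :
    algebraMap O B u ^ N * Y ^ i = algebraMap O B ((q ^ a * δ') ^ i * u ^ (N - i)) := by
  have e2 : N = i + (N - i) := (Nat.add_sub_cancel' hi).symm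
  have e3 : algebraMap O B u ^ N * Y ^ i =
      (algebraMap O B u * Y) ^ i * algebraMap O B u ^ (N - i) := by
    conv_lhs => rw [e2, pow_add]
    rw [mul_pow]
    ring
  rw [e3, h.hY]
  simp only [map_mul, map_pow]

/-- `u ^ N P(Y) ∈ O` for `deg P ≤ N` -/
theorem uB_pow_mul_aeval (h : ChartCore q u v δ e p1 p2 a δ' Y) (P : O[X]) {N : ℕ}
    (hN : P.natDegree ≤ N) :
    algebraMap O B u ^ N * aeval Y P = algebraMap O B
      (∑ i ∈ Finset.range (P.natDegree + 1), P.coeff i * ((q ^ a * δ') ^ i * u ^ (N - i))) := by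
  rw [aeval_eq_sum_range, Finset.mul_sum, map_sum]
  refine Finset.sum_congr rfl fun i hi => ?_
  have hi' : i ≤ N := (Nat.lt_succ_iff.mp (Finset.mem_range.mp hi)).trans hN
  rw [Algebra.smul_def, ← mul_assoc, mul_comm (algebraMap O B u ^ N), mul_assoc,
    h.uB_pow_mul_Y_pow hi', ← map_mul]

/-- every element of `B` becomes an element of `O` after multiplication by a power of `u` -/
theorem exists_uB_pow_mul_eq (h : ChartCore q u v δ e p1 p2 a δ' Y) (y : B) :
    ∃ N₀ : ℕ, ∀ N, N₀ ≤ N → ∃ o : O, algebraMap O B u ^ N * y = algebraMap O B o := by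
  obtain ⟨P, rfl⟩ := h.exists_aeval y
  exact ⟨P.natDegree, fun N hN => ⟨_, h.uB_pow_mul_aeval P hN⟩⟩

/-! ### The two reductions -/

/-- the reduction to the exceptional component `Spec k'[Y]` -/
noncomputable def rho (h : ChartCore q u v δ e p1 p2 a δ' Y) : B →+* (ResidueField O)[X] :=
  RingHom.liftOfSurjective ((aeval Y : O[X] →ₐ[O] B) : O[X] →+* B) h.aeval_surjective
    ⟨Polynomial.mapRingHom (residue O), fun P hP => by
      rw [RingHom.mem_ker] at hP ⊢
      ext i
      rw [coe_mapRingHom, coeff_map, coeff_zero]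
      exact (residue_eq_zero_iff _).mpr (h.htr P hP i)⟩

/-- `ρ (P(Y)) = P̄` -/
theorem rho_aeval (h : ChartCore q u v δ e p1 p2 a δ' Y) (P : O[X]) :
    h.rho (aeval Y P) = P.map (residue O) := by
  have := RingHom.liftOfRightInverse_comp_apply
    ((aeval Y : O[X] →ₐ[O] B) : O[X] →+* B) _
    (Function.surjInv_eq h.aeval_surjective)
    ⟨Polynomial.mapRingHom (residue O), fun P hP => by
      rw [RingHom.mem_ker] at hP ⊢
      ext i
      rw [coe_mapRingHom, coeff_map, coeff_zero]
      exact (residue_eq_zero_iff _).mpr (h.htr P hP i)⟩ P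
  exact this

theorem rho_algebraMap (h : ChartCore q u v δ e p1 p2 a δ' Y) (o : O) :
    h.rho (algebraMap O B o) = C (residue O o) := by
  have := h.rho_aeval (C o)
  rwa [aeval_C, Polynomial.map_C] at this

theorem rho_Y (h : ChartCore q u v δ e p1 p2 a δ' Y) : h.rho Y = Polynomial.X := by
  have := h.rho_aeval Polynomial.X
  rwa [aeval_X, Polynomial.map_X] at this

/-- a relation `P(Y) = 0` has constant term in `p2` (multiply by `u ^ deg P`) -/
theorem coeff_zero_mem (h : ChartCore q u v δ e p1 p2 a δ' Y) {P : O[X]}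
    (hP : aeval Y P = 0) : P.coeff 0 ∈ p2 := by
  set N := P.natDegree with hN
  have key := h.uB_pow_mul_aeval P (le_refl N)
  rw [hP, mul_zero] at key
  have h0 : ∑ i ∈ Finset.range (N + 1), P.coeff i * ((q ^ a * δ') ^ i * u ^ (N - i)) = 0 :=
    h.inj (key.symm.trans (map_zero _).symm)
  rw [Finset.sum_range_succ'] at h0
  have hsum : ∑ i ∈ Finset.range N,
      P.coeff (i + 1) * ((q ^ a * δ') ^ (i + 1) * u ^ (N - (i + 1))) ∈ p2 := by
    refine Ideal.sum_mem _ fun i _ => ?_
    refine Ideal.mul_mem_left _ _ (Ideal.mul_mem_right _ _ ?_)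
    rw [pow_succ]
    refine Ideal.mul_mem_left _ _ (Ideal.mul_mem_right _ _ ?_)
    have : a = a - 1 + 1 := (Nat.sub_add_cancel h.pos).symm
    rw [this, pow_succ]
    exact Ideal.mul_mem_left _ _ h.node.hq2
  have h2 : P.coeff 0 * u ^ N ∈ p2 := by
    have e3 : P.coeff 0 * u ^ N = - ∑ i ∈ Finset.range N,
        P.coeff (i + 1) * ((q ^ a * δ') ^ (i + 1) * u ^ (N - (i + 1))) := by
      have := h0
      simp only [pow_zero, one_mul, Nat.sub_zero] at this
      exact eq_neg_of_add_eq_zero_right this
    rw [e3]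
    exact p2.neg_mem hsum
  have hp := h.node.prime2
  rcases hp.mem_or_mem h2 with h3 | h3
  · exact h3
  · exact absurd (hp.mem_of_pow_mem _ h3) h.node.hu2

/-- the reduction to the old branch `Spec O/p2`: `Y ↦ 0` -/
noncomputable def rhoTwo (h : ChartCore q u v δ e p1 p2 a δ' Y) : B →+* O ⧸ p2 :=
  RingHom.liftOfSurjective ((aeval Y : O[X] →ₐ[O] B) : O[X] →+* B) h.aeval_surjective
    ⟨(Ideal.Quotient.mk p2).comp (Polynomial.constantCoeff), fun P hP => by
      rw [RingHom.mem_ker] at hP ⊢
      rw [RingHom.comp_apply, Ideal.Quotient.eq_zero_iff_mem, Polynomial.constantCoeff_apply]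
      exact h.coeff_zero_mem hP⟩

theorem rhoTwo_aeval (h : ChartCore q u v δ e p1 p2 a δ' Y) (P : O[X]) :
    h.rhoTwo (aeval Y P) = Ideal.Quotient.mk p2 (P.coeff 0) := by
  have := RingHom.liftOfRightInverse_comp_apply
    ((aeval Y : O[X] →ₐ[O] B) : O[X] →+* B) _
    (Function.surjInv_eq h.aeval_surjective)
    ⟨(Ideal.Quotient.mk p2).comp (Polynomial.constantCoeff), fun P hP => by
      rw [RingHom.mem_ker] at hP ⊢
      rw [RingHom.comp_apply, Ideal.Quotient.eq_zero_iff_mem, Polynomial.constantCoeff_apply]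
      exact h.coeff_zero_mem hP⟩ P
  exact this

theorem rhoTwo_algebraMap (h : ChartCore q u v δ e p1 p2 a δ' Y) (o : O) :
    h.rhoTwo (algebraMap O B o) = Ideal.Quotient.mk p2 o := by
  have := h.rhoTwo_aeval (C o)
  rwa [aeval_C, coeff_C_zero] at this

theorem rhoTwo_Y (h : ChartCore q u v δ e p1 p2 a δ' Y) : h.rhoTwo Y = 0 := by
  have := h.rhoTwo_aeval (Polynomial.X)
  rwa [aeval_X, coeff_X_zero, map_zero] at this

/-! ### The special fibre of the chart -/

/-- `p2 B ⊆ q B` -/
theorem algebraMap_mem_of_mem_p2 (h : ChartCore q u v δ e p1 p2 a δ' Y) {o : O}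
    (ho : o ∈ p2) : algebraMap O B o ∈ Ideal.span {algebraMap O B q} := by
  rw [h.node.p2_eq] at ho
  obtain ⟨z, hz, w, hw, rfl⟩ := Submodule.mem_sup.mp ho
  obtain ⟨c, rfl⟩ := Ideal.mem_span_singleton'.mp hz
  obtain ⟨d, rfl⟩ := Ideal.mem_span_singleton'.mp hw
  rw [map_add, map_mul, map_mul]
  exact Ideal.add_mem _ (Ideal.mul_mem_left _ _ (Ideal.mem_span_singleton_self _))
    (Ideal.mul_mem_left _ _ h.vB_mem)

/-- `𝔪 B ⊆ (q, u) B` -/
theorem algebraMap_mem_of_mem_maximalIdeal (h : ChartCore q u v δ e p1 p2 a δ' Y) {o : O}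
    (ho : o ∈ maximalIdeal O) :
    algebraMap O B o ∈ Ideal.span {algebraMap O B q, algebraMap O B u} := by
  rw [h.node.max2] at ho
  obtain ⟨z, hz, w, hw, rfl⟩ := Submodule.mem_sup.mp ho
  obtain ⟨d, rfl⟩ := Ideal.mem_span_singleton'.mp hw
  rw [map_add, map_mul]
  refine Ideal.add_mem _ ?_ (Ideal.mul_mem_left _ _ (Ideal.subset_span (by simp)))
  exact Ideal.span_mono (by simp) (h.algebraMap_mem_of_mem_p2 hz)

/-- `𝔪 Y ⊆ q B` -/
theorem algebraMap_mul_Y_mem (h : ChartCore q u v δ e p1 p2 a δ' Y) {o : O}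
    (ho : o ∈ maximalIdeal O) : algebraMap O B o * Y ∈ Ideal.span {algebraMap O B q} := by
  rw [h.node.max2] at ho
  obtain ⟨z, hz, w, hw, rfl⟩ := Submodule.mem_sup.mp ho
  obtain ⟨d, rfl⟩ := Ideal.mem_span_singleton'.mp hw
  rw [map_add, map_mul, add_mul]
  refine Ideal.add_mem _ (Ideal.mul_mem_right _ _ (h.algebraMap_mem_of_mem_p2 hz)) ?_
  rw [mul_assoc, h.hY]
  have ha : a = a - 1 + 1 := (Nat.sub_add_cancel h.pos).symm
  rw [ha, pow_succ, map_mul, map_mul]
  have h2 : algebraMap O B d * (algebraMap O B (q ^ (a - 1)) * algebraMap O B q *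
      algebraMap O B δ') = (algebraMap O B d * algebraMap O B (q ^ (a - 1)) *
      algebraMap O B δ') * algebraMap O B q := by ring
  rw [h2]
  exact Ideal.mul_mem_left _ _ (Ideal.mem_span_singleton_self _)

theorem q_mem_maximalIdeal (h : ChartCore q u v δ e p1 p2 a δ' Y) : q ∈ maximalIdeal O :=
  h.node.q_mem_maximalIdeal

theorem rho_q (h : ChartCore q u v δ e p1 p2 a δ' Y) : h.rho (algebraMap O B q) = 0 := by
  rw [h.rho_algebraMap, (residue_eq_zero_iff _).mpr h.node.q_mem_maximalIdeal, map_zero]

theorem rho_u (h : ChartCore q u v δ e p1 p2 a δ' Y) : h.rho (algebraMap O B u) = 0 := by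
  rw [h.rho_algebraMap, (residue_eq_zero_iff _).mpr h.node.u_mem_maximalIdeal, map_zero]

theorem rhoTwo_q (h : ChartCore q u v δ e p1 p2 a δ' Y) : h.rhoTwo (algebraMap O B q) = 0 := by
  rw [h.rhoTwo_algebraMap, Ideal.Quotient.eq_zero_iff_mem]
  exact h.node.hq2

/-- the old branch of the special fibre of the chart is `Y = 0` -/
theorem ker_rhoTwo (h : ChartCore q u v δ e p1 p2 a δ' Y) :
    RingHom.ker h.rhoTwo = Ideal.span {algebraMap O B q, Y} := by
  apply le_antisymm
  · intro y hy
    obtain ⟨P, rfl⟩ := h.exists_aeval y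
    rw [RingHom.mem_ker, h.rhoTwo_aeval, Ideal.Quotient.eq_zero_iff_mem] at hy
    have e1 : aeval Y P = aeval Y P.divX * Y + algebraMap O B (P.coeff 0) := by
      conv_lhs => rw [← Polynomial.divX_mul_X_add P]
      rw [map_add, map_mul, aeval_X, aeval_C]
    rw [e1]
    refine Ideal.add_mem _ (Ideal.mul_mem_left _ _ (Ideal.subset_span (by simp))) ?_
    exact Ideal.span_mono (by simp) (h.algebraMap_mem_of_mem_p2 hy)
  · rw [Ideal.span_le]
    intro y hy
    rcases hy with rfl | rfl
    · exact h.rhoTwo_q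
    · exact h.rhoTwo_Y

/-- the exceptional component of the special fibre of the chart is `u = 0` -/
theorem ker_rho (h : ChartCore q u v δ e p1 p2 a δ' Y) :
    RingHom.ker h.rho = Ideal.span {algebraMap O B q, algebraMap O B u} := by
  apply le_antisymm
  · intro y hy
    obtain ⟨P, rfl⟩ := h.exists_aeval y
    rw [RingHom.mem_ker, h.rho_aeval] at hy
    rw [aeval_eq_sum_range]
    refine Ideal.sum_mem _ fun i _ => ?_
    rw [Algebra.smul_def]
    refine Ideal.mul_mem_right _ _ (h.algebraMap_mem_of_mem_maximalIdeal ?_)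
    rw [← residue_eq_zero_iff]
    have := congrArg (fun R => Polynomial.coeff R i) hy
    simpa using this
  · rw [Ideal.span_le]
    intro y hy
    rcases hy with rfl | rfl
    · exact h.rho_q
    · exact h.rho_u

/-- the special fibre of the chart is reduced: the two components meet in `(q)` -/
theorem ker_inf (h : ChartCore q u v δ e p1 p2 a δ' Y) :
    RingHom.ker h.rho ⊓ RingHom.ker h.rhoTwo = Ideal.span {algebraMap O B q} := by
  apply le_antisymm
  · intro y hy
    obtain ⟨hy1, hy2⟩ := Ideal.mem_inf.mp hy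
    obtain ⟨P, rfl⟩ := h.exists_aeval y
    rw [RingHom.mem_ker, h.rho_aeval] at hy1
    rw [RingHom.mem_ker, h.rhoTwo_aeval, Ideal.Quotient.eq_zero_iff_mem] at hy2
    have hcoeff : ∀ i, P.coeff i ∈ maximalIdeal O := fun i => by
      rw [← residue_eq_zero_iff]
      have := congrArg (fun R => Polynomial.coeff R i) hy1
      simpa using this
    rw [aeval_eq_sum_range]
    refine Ideal.sum_mem _ fun i _ => ?_
    rw [Algebra.smul_def]
    rcases Nat.eq_zero_or_pos i with rfl | hi
    · rw [pow_zero, mul_one]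
      exact h.algebraMap_mem_of_mem_p2 hy2
    · have : i = i - 1 + 1 := (Nat.sub_add_cancel hi).symm
      rw [this, pow_succ', ← mul_assoc]
      exact Ideal.mul_mem_right _ _ (h.algebraMap_mul_Y_mem (hcoeff _))
  · rw [Ideal.span_singleton_le_iff_mem]
    exact Ideal.mem_inf.mpr ⟨h.rho_q, h.rhoTwo_q⟩

/-! ### The new crossing point -/

/-- the crossing point of the old branch and the exceptional component -/
def ptIdeal (q u : O) (Y : B) : Ideal B :=
  Ideal.span {algebraMap O B q, algebraMap O B u, Y}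

/-- evaluation at the crossing point -/
noncomputable def chi (h : ChartCore q u v δ e p1 p2 a δ' Y) : B →+* ResidueField O :=
  (Polynomial.evalRingHom 0).comp h.rho

theorem chi_algebraMap (h : ChartCore q u v δ e p1 p2 a δ' Y) (o : O) :
    h.chi (algebraMap O B o) = residue O o := by
  simp [chi, h.rho_algebraMap]

theorem chi_surjective (h : ChartCore q u v δ e p1 p2 a δ' Y) :
    Function.Surjective h.chi := fun z => by
  obtain ⟨o, rfl⟩ := residue_surjective z
  exact ⟨algebraMap O B o, h.chi_algebraMap o⟩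

theorem chi_aeval (h : ChartCore q u v δ e p1 p2 a δ' Y) (P : O[X]) :
    h.chi (aeval Y P) = residue O (P.coeff 0) := by
  rw [chi, RingHom.comp_apply, h.rho_aeval, coe_evalRingHom, ← coeff_zero_eq_eval_zero,
    coeff_map]

theorem ker_chi (h : ChartCore q u v δ e p1 p2 a δ' Y) :
    RingHom.ker h.chi = ptIdeal q u Y := by
  apply le_antisymm
  · intro y hy
    obtain ⟨P, rfl⟩ := h.exists_aeval y
    rw [RingHom.mem_ker, h.chi_aeval, residue_eq_zero_iff] at hy
    have e1 : aeval Y P = aeval Y P.divX * Y + algebraMap O B (P.coeff 0) := by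
      conv_lhs => rw [← Polynomial.divX_mul_X_add P]
      rw [map_add, map_mul, aeval_X, aeval_C]
    rw [e1]
    refine Ideal.add_mem _ (Ideal.mul_mem_left _ _ (Ideal.subset_span (by simp))) ?_
    exact Ideal.span_mono (by intro z hz; rcases hz with rfl | rfl <;> simp)
      (h.algebraMap_mem_of_mem_maximalIdeal hy)
  · rw [ptIdeal, Ideal.span_le]
    intro y hy
    rcases hy with rfl | rfl | rfl
    · simp [chi, h.rho_q]
    · simp [chi, h.rho_u]
    · simp [chi, h.rho_Y]

theorem ptIdeal_isMaximal (h : ChartCore q u v δ e p1 p2 a δ' Y) :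
    (ptIdeal q u Y : Ideal B).IsMaximal := by
  rw [← h.ker_chi]
  exact RingHom.ker_isMaximal_of_surjective _ h.chi_surjective

/-- the residue field of the crossing point is the residue field of `O` -/
theorem exists_sub_mem_ptIdeal (h : ChartCore q u v δ e p1 p2 a δ' Y) (y : B) :
    ∃ o : O, y - algebraMap O B o ∈ ptIdeal q u Y := by
  obtain ⟨o, ho⟩ := residue_surjective (h.chi y)
  refine ⟨o, ?_⟩
  rw [← h.ker_chi, RingHom.mem_ker, map_sub, h.chi_algebraMap, ho, sub_self]

/-- an element of `O` lies in the crossing point iff it is a non-unit -/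
theorem algebraMap_mem_ptIdeal_iff (h : ChartCore q u v δ e p1 p2 a δ' Y) (o : O) :
    algebraMap O B o ∈ ptIdeal q u Y ↔ o ∈ maximalIdeal O := by
  rw [← h.ker_chi, RingHom.mem_ker, h.chi_algebraMap, residue_eq_zero_iff]

theorem span_qu_isPrime (h : ChartCore q u v δ e p1 p2 a δ' Y) :
    (Ideal.span {algebraMap O B q, algebraMap O B u} : Ideal B).IsPrime := by
  rw [← h.ker_rho]
  exact RingHom.ker_isPrime _

theorem span_qY_isPrime (h : ChartCore q u v δ e p1 p2 a δ' Y) :
    (Ideal.span {algebraMap O B q, Y} : Ideal B).IsPrime := by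
  rw [← h.ker_rhoTwo]
  have := h.node.prime2
  exact RingHom.ker_isPrime _

theorem span_qu_le_ptIdeal :
    (Ideal.span {algebraMap O B q, algebraMap O B u} : Ideal B) ≤ ptIdeal q u Y := by
  rw [ptIdeal]
  exact Ideal.span_mono (by intro z hz; rcases hz with rfl | rfl <;> simp)

theorem span_qY_le_ptIdeal :
    (Ideal.span {algebraMap O B q, Y} : Ideal B) ≤ ptIdeal q u Y := by
  rw [ptIdeal]
  exact Ideal.span_mono (by intro z hz; rcases hz with rfl | rfl <;> simp)

/-! ### The local ring of the new crossing point -/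

section Localisations

variable {L : Type*} [CommRing L] [Algebra B L]

omit [IsDomain B] in
/-- contraction of the extension of a prime contained in the centre of the localisation -/
theorem mem_of_algebraMap_mem_map (M I : Ideal B) [M.IsPrime] [IsLocalization.AtPrime L M]
    (hI : I.IsPrime) (hle : I ≤ M) {x : B} (hx : algebraMap B L x ∈ I.map (algebraMap B L)) :
    x ∈ I := by
  have hd : Disjoint (M.primeCompl : Set B) I :=
    Set.disjoint_left.mpr fun y hy hyI => hy (hle hyI)
  have := IsLocalization.under_map_of_isPrime_disjoint M.primeCompl L hI hd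
  rw [← this]
  exact Ideal.mem_comap.mpr hx

omit [IsDomain B] in
theorem isPrime_map_of_le (M I : Ideal B) [M.IsPrime] [IsLocalization.AtPrime L M]
    (hI : I.IsPrime) (hle : I ≤ M) : (I.map (algebraMap B L)).IsPrime :=
  IsLocalization.isPrime_of_isPrime_disjoint M.primeCompl L I hI
    (Set.disjoint_left.mpr fun _ hy hyI => hy (hle hyI))

theorem loc_isNoetherianRing (h : ChartCore q u v δ e p1 p2 a δ' Y)
    (M : Ideal B) [M.IsPrime] [IsLocalization.AtPrime L M] : IsNoetherianRing L :=
  IsLocalization.isNoetherianRing M.primeCompl L h.isNoetherianRing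

theorem loc_isDomain (M : Ideal B) [M.IsPrime] [IsLocalization.AtPrime L M] : IsDomain L :=
  IsLocalization.isDomain_of_atPrime L M

theorem loc_injective (M : Ideal B) [M.IsPrime] [IsLocalization.AtPrime L M] :
    Function.Injective (algebraMap B L) :=
  IsLocalization.injective L M.primeCompl_le_nonZeroDivisors

/-- the maximal ideal of the local ring of the new crossing point is `(q, u, Y)` -/
theorem loc_mem_span_of_not_isUnit [(ptIdeal q u Y : Ideal B).IsPrime]
    [IsLocalization.AtPrime L (ptIdeal q u Y : Ideal B)] {x : L} (hx : ¬ IsUnit x) :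
    x ∈ Ideal.span {algebraMap B L (algebraMap O B q), algebraMap B L (algebraMap O B u),
      algebraMap B L Y} := by
  haveI : IsLocalRing L := IsLocalization.AtPrime.isLocalRing L (ptIdeal q u Y : Ideal B)
  have hmaxL : maximalIdeal L = (ptIdeal q u Y : Ideal B).map (algebraMap B L) :=
    (IsLocalization.AtPrime.map_eq_maximalIdeal (ptIdeal q u Y) L).symm
  have h1 : x ∈ maximalIdeal L := (IsLocalRing.mem_maximalIdeal x).mpr hx
  rw [hmaxL, ptIdeal, Ideal.map_span] at h1
  have h2 : (algebraMap B L) '' {algebraMap O B q, algebraMap O B u, Y} =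
      {algebraMap B L (algebraMap O B q), algebraMap B L (algebraMap O B u),
        algebraMap B L Y} := by
    rw [Set.image_insert_eq, Set.image_insert_eq, Set.image_singleton]
  rwa [h2] at h1

/-- **The new crossing point.**  The localisation of the chart at `(q, u, Y)` is a node
`u Y = q ^ a δ'`, with branches the exceptional component `(q, u)` and the old branch `(q, Y)`. -/
theorem loc_nodeCore (h : ChartCore q u v δ e p1 p2 a δ' Y) [(ptIdeal q u Y : Ideal B).IsPrime]
    [IsLocalization.AtPrime L (ptIdeal q u Y : Ideal B)] :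
    NodeCore (algebraMap B L (algebraMap O B q)) (algebraMap B L (algebraMap O B u))
      (algebraMap B L Y) (algebraMap B L (algebraMap O B δ')) a
      ((Ideal.span {algebraMap O B q, algebraMap O B u}).map (algebraMap B L))
      ((Ideal.span {algebraMap O B q, Y}).map (algebraMap B L)) := by
  refine
    { prime1 := isPrime_map_of_le (ptIdeal q u Y) _ h.span_qu_isPrime span_qu_le_ptIdeal
      prime2 := isPrime_map_of_le (ptIdeal q u Y) _ h.span_qY_isPrime span_qY_le_ptIdeal
      hq1 := Ideal.mem_map_of_mem _ (Ideal.subset_span (by simp))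
      hq2 := Ideal.mem_map_of_mem _ (Ideal.subset_span (by simp))
      hu := Ideal.mem_map_of_mem _ (Ideal.subset_span (by simp))
      hv := Ideal.mem_map_of_mem _ (Ideal.subset_span (by simp))
      hv1 := ?_
      hu2 := ?_
      hmax := fun x hx => loc_mem_span_of_not_isUnit hx
      hδ := (h.hδ'.map (algebraMap O B)).map (algebraMap B L)
      he := h.pos
      huv := by rw [← map_mul, h.hY, map_mul, map_pow, map_mul, map_pow] }
  · intro hY
    have := mem_of_algebraMap_mem_map (ptIdeal q u Y) _ h.span_qu_isPrime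
      span_qu_le_ptIdeal hY
    rw [← h.ker_rho, RingHom.mem_ker, h.rho_Y] at this
    exact Polynomial.X_ne_zero this
  · intro hu
    have := mem_of_algebraMap_mem_map (ptIdeal q u Y) _ h.span_qY_isPrime
      span_qY_le_ptIdeal hu
    rw [← h.ker_rhoTwo, RingHom.mem_ker, h.rhoTwo_algebraMap,
      Ideal.Quotient.eq_zero_iff_mem] at this
    exact h.node.hu2 this

/-- the special fibre of the local ring of the new crossing point is the union of the two
branches, and it is reduced -/
theorem loc_inf (h : ChartCore q u v δ e p1 p2 a δ' Y) [(ptIdeal q u Y : Ideal B).IsPrime]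
    [IsLocalization.AtPrime L (ptIdeal q u Y : Ideal B)] :
    (Ideal.span {algebraMap O B q, algebraMap O B u}).map (algebraMap B L) ⊓
      (Ideal.span {algebraMap O B q, Y}).map (algebraMap B L) =
      Ideal.span {algebraMap B L (algebraMap O B q)} := by
  have hd1 : Disjoint ((ptIdeal q u Y : Ideal B).primeCompl : Set B)
      (Ideal.span {algebraMap O B q, algebraMap O B u} : Ideal B) :=
    Set.disjoint_left.mpr fun y hy hyI => hy (span_qu_le_ptIdeal hyI)
  have hd2 : Disjoint ((ptIdeal q u Y : Ideal B).primeCompl : Set B)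
      (Ideal.span {algebraMap O B q, Y} : Ideal B) :=
    Set.disjoint_left.mpr fun y hy hyI => hy (span_qY_le_ptIdeal hyI)
  rw [← IsLocalization.map_under (ptIdeal q u Y : Ideal B).primeCompl L
    (Ideal.map (algebraMap B L) (Ideal.span {algebraMap O B q, algebraMap O B u}) ⊓
      Ideal.map (algebraMap B L) (Ideal.span {algebraMap O B q, Y})),
    Ideal.under_def, Ideal.comap_inf, ← Ideal.under_def, ← Ideal.under_def,
    IsLocalization.under_map_of_isPrime_disjoint _ L h.span_qu_isPrime hd1,
    IsLocalization.under_map_of_isPrime_disjoint _ L h.span_qY_isPrime hd2,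
    ← h.ker_rhoTwo, ← h.ker_rho, h.ker_inf, Ideal.map_span, Set.image_singleton]

/-- every prime of the local ring containing `q` contains one of the two branches -/
theorem loc_vertical_le (h : ChartCore q u v δ e p1 p2 a δ' Y)
    [(ptIdeal q u Y : Ideal B).IsPrime] [IsLocalization.AtPrime L (ptIdeal q u Y : Ideal B)]
    (Q : Ideal L) (hQ : Q.IsPrime) (hqQ : algebraMap B L (algebraMap O B q) ∈ Q) :
    (Ideal.span {algebraMap O B q, algebraMap O B u}).map (algebraMap B L) ≤ Q ∨
      (Ideal.span {algebraMap O B q, Y}).map (algebraMap B L) ≤ Q := by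
  have h1 : (Ideal.span {algebraMap O B q, algebraMap O B u}).map (algebraMap B L) *
      (Ideal.span {algebraMap O B q, Y}).map (algebraMap B L) ≤ Q := by
    refine Ideal.mul_le_inf.trans ?_
    rw [h.loc_inf (L := L)]
    exact (Ideal.span_singleton_le_iff_mem _).mpr hqQ
  exact (Ideal.IsPrime.mul_le hQ).mp h1

omit [IsLocalRing O] [IsNoetherianRing O] [IsDomain O] [IsDomain B] [Algebra O B] in
/-- a nonzero prime contained in a prime of height one is equal to it -/
theorem eq_of_le_of_height_eq_one [IsDomain L] {p Q : Ideal L} (hp : p.IsPrime)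
    (hQ : Q.IsPrime) (hle : p ≤ Q) (hp0 : p ≠ ⊥) (h1 : Q.height = 1) : Q = p := by
  by_contra hne
  have hlt : p < Q := lt_of_le_of_ne hle (Ne.symm hne)
  haveI : Q.FiniteHeight := ⟨Or.inr (by rw [h1]; exact ENat.one_ne_top)⟩
  have h2 := Ideal.height_strict_mono_of_isPrime_of_isPrime hlt
  rw [h1] at h2
  have h3 : p.height = 0 := Order.lt_one_iff.mp h2
  exact hp0 (Ideal.height_eq_zero_iff_eq_bot.mp h3)

/-- the only vertical height-one primes of the local ring are the two branches -/
theorem loc_vertical (h : ChartCore q u v δ e p1 p2 a δ' Y)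
    [(ptIdeal q u Y : Ideal B).IsPrime] [IsLocalization.AtPrime L (ptIdeal q u Y : Ideal B)]
    (Q : Ideal L) (hQ : Q.IsPrime) (hht : Q.height = 1)
    (hqQ : algebraMap B L (algebraMap O B q) ∈ Q) :
    Q = (Ideal.span {algebraMap O B q, algebraMap O B u}).map (algebraMap B L) ∨
      Q = (Ideal.span {algebraMap O B q, Y}).map (algebraMap B L) := by
  haveI : IsDomain L := loc_isDomain (ptIdeal q u Y : Ideal B)
  have hn := h.loc_nodeCore (L := L)
  have hqL : algebraMap B L (algebraMap O B q) ≠ 0 := fun h0 =>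
    h.qB_ne_zero (loc_injective (L := L) (ptIdeal q u Y : Ideal B) (h0.trans (map_zero _).symm))
  rcases h.loc_vertical_le Q hQ hqQ with h1 | h1
  · left
    refine eq_of_le_of_height_eq_one hn.prime1 hQ h1 (fun h0 => hqL ?_) hht
    have := hn.hq1
    rwa [h0, Ideal.mem_bot] at this
  · right
    refine eq_of_le_of_height_eq_one hn.prime2 hQ h1 (fun h0 => hqL ?_) hht
    have := hn.hq2
    rwa [h0, Ideal.mem_bot] at this

/-- the special fibre of the local ring is reduced -/
theorem loc_reduced (h : ChartCore q u v δ e p1 p2 a δ' Y)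
    [(ptIdeal q u Y : Ideal B).IsPrime] [IsLocalization.AtPrime L (ptIdeal q u Y : Ideal B)]
    (y : L) (hy : ∃ n : ℕ, y ^ n ∈ Ideal.span {algebraMap B L (algebraMap O B q)}) :
    y ∈ Ideal.span {algebraMap B L (algebraMap O B q)} := by
  obtain ⟨n, hn⟩ := hy
  have hc := h.loc_nodeCore (L := L)
  rw [← h.loc_inf (L := L)] at hn ⊢
  obtain ⟨h1, h2⟩ := Ideal.mem_inf.mp hn
  exact Ideal.mem_inf.mpr ⟨hc.prime1.mem_of_pow_mem _ h1, hc.prime2.mem_of_pow_mem _ h2⟩

/-- the residue field of the local ring is the residue field of `O` -/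
theorem loc_residue (h : ChartCore q u v δ e p1 p2 a δ' Y)
    [(ptIdeal q u Y : Ideal B).IsPrime] [IsLocalization.AtPrime L (ptIdeal q u Y : Ideal B)]
    (y : L) : ∃ o : O, ¬ IsUnit (y - algebraMap B L (algebraMap O B o)) := by
  haveI : IsLocalRing L := IsLocalization.AtPrime.isLocalRing L (ptIdeal q u Y : Ideal B)
  have hmaxL : maximalIdeal L = (ptIdeal q u Y : Ideal B).map (algebraMap B L) :=
    (IsLocalization.AtPrime.map_eq_maximalIdeal (ptIdeal q u Y) L).symm
  obtain ⟨⟨b, s⟩, hbs⟩ := IsLocalization.surj (ptIdeal q u Y : Ideal B).primeCompl y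
  simp only at hbs
  -- `y s = b`; choose `o₁ ≡ b`, `o₂ ≡ s`, `o₂` a unit of `O`, `o = o₁ / o₂`
  obtain ⟨o1, ho1⟩ := h.exists_sub_mem_ptIdeal b
  obtain ⟨o2, ho2⟩ := h.exists_sub_mem_ptIdeal (s : B)
  have ho2u : IsUnit o2 := by
    by_contra hnu
    have h1 : algebraMap O B o2 ∈ ptIdeal q u Y :=
      (h.algebraMap_mem_ptIdeal_iff o2).mpr ((IsLocalRing.mem_maximalIdeal o2).mpr hnu)
    have h2 : (s : B) ∈ ptIdeal q u Y := by
      have : (s : B) = ((s : B) - algebraMap O B o2) + algebraMap O B o2 := by ring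
      rw [this]
      exact Ideal.add_mem _ ho2 h1
    exact s.2 h2
  obtain ⟨d, hd⟩ := ho2u.exists_right_inv
  refine ⟨o1 * d, ?_⟩
  refine (IsLocalRing.mem_maximalIdeal _).mp ?_
  rw [hmaxL]
  -- `(y - o₁ d) s = (b - o₁) + o₁ d (o₂ - s)` lies in the image of the ideal, `s` is a unit
  have hsu : IsUnit (algebraMap B L (s : B)) := IsLocalization.map_units L s
  have key : (y - algebraMap B L (algebraMap O B (o1 * d))) * algebraMap B L (s : B) ∈
      (ptIdeal q u Y : Ideal B).map (algebraMap B L) := by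
    have e1 : (y - algebraMap B L (algebraMap O B (o1 * d))) * algebraMap B L (s : B) =
        algebraMap B L ((b - algebraMap O B o1) -
          algebraMap O B (o1 * d) * ((s : B) - algebraMap O B o2)) := by
      have hd' : algebraMap O B o2 * algebraMap O B d = 1 := by
        rw [← map_mul, hd, map_one]
      have e2 : (b - algebraMap O B o1) -
          algebraMap O B (o1 * d) * ((s : B) - algebraMap O B o2) =
          b - algebraMap O B (o1 * d) * (s : B) := by
        rw [map_mul]
        linear_combination (algebraMap O B o1) * hd'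
      rw [e2, map_sub, map_mul (algebraMap B L), ← hbs]
      ring
    rw [e1]
    exact Ideal.mem_map_of_mem _ (Ideal.sub_mem _ ho1 (Ideal.mul_mem_left _ _ ho2))
  obtain ⟨t, ht⟩ := hsu.exists_right_inv
  have e3 : y - algebraMap B L (algebraMap O B (o1 * d)) =
      ((y - algebraMap B L (algebraMap O B (o1 * d))) * algebraMap B L (s : B)) * t := by
    rw [mul_assoc, ht, mul_one]
  rw [e3]
  exact Ideal.mul_mem_right _ _ key

/-! ### Normality of the local ring of the new crossing point -/

/-- multiplication by a power of `u` makes an element integral over `B = O[Y]` integral over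
`O` -/
theorem exists_isIntegral_uB_pow_mul (h : ChartCore q u v δ e p1 p2 a δ' Y) {S : Type*}
    [CommRing S] [Algebra B S] [Algebra O S] [IsScalarTower O B S] (z : S)
    (hz : IsIntegral B z) :
    ∃ N : ℕ, IsIntegral O (algebraMap B S (algebraMap O B u ^ N) * z) := by
  classical
  obtain ⟨p, hp1, hp2⟩ := hz
  -- a common exponent for the coefficients
  have hex : ∀ i : ℕ, ∃ N₀ : ℕ, ∀ N, N₀ ≤ N →
      ∃ o : O, algebraMap O B u ^ N * p.coeff i = algebraMap O B o :=
    fun i => h.exists_uB_pow_mul_eq (p.coeff i)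
  choose N₀ hN₀ using hex
  set N := (Finset.range (p.natDegree + 1)).sup N₀ with hN
  have hcoeff : ∀ i, i ≤ p.natDegree →
      ∃ o : O, algebraMap O B u ^ N * p.coeff i = algebraMap O B o := fun i hi =>
    hN₀ i N (Finset.le_sup (f := N₀) (Finset.mem_range.mpr (Nat.lt_succ_of_le hi)))
  refine ⟨N, ?_⟩
  set c : B := algebraMap O B u ^ N with hc
  have hmonic : (p.scaleRoots c).Monic := (Polynomial.monic_scaleRoots_iff c).mpr hp1
  have hlifts : p.scaleRoots c ∈ Polynomial.lifts (algebraMap O B) := by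
    rw [Polynomial.lifts_iff_coeff_lifts]
    intro i
    rw [Polynomial.coeff_scaleRoots]
    rcases lt_trichotomy i p.natDegree with hi | hi | hi
    · obtain ⟨o, ho⟩ := hcoeff i hi.le
      obtain ⟨m, hm⟩ : ∃ m, p.natDegree - i = m + 1 :=
        ⟨p.natDegree - i - 1, (Nat.sub_add_cancel (Nat.sub_pos_of_lt hi)).symm⟩
      refine ⟨o * u ^ (N * m), ?_⟩
      rw [hm, pow_succ, map_mul, ← ho, hc, map_pow, ← pow_mul]
      ring
    · rw [hi, Nat.sub_self, pow_zero, mul_one, hp1.coeff_natDegree]
      exact ⟨1, map_one _⟩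
    · rw [Polynomial.coeff_eq_zero_of_natDegree_lt hi, zero_mul]
      exact ⟨0, map_zero _⟩
  obtain ⟨p', hp'1, -, hp'2⟩ := Polynomial.lifts_and_natDegree_eq_and_monic hlifts hmonic
  refine ⟨p', hp'2, ?_⟩
  rw [IsScalarTower.algebraMap_eq O B S, ← Polynomial.eval₂_map, hp'1,
    Polynomial.scaleRoots_eval₂_mul, hp2, mul_zero]

/-- an element of the fraction field of `L` integral over `L` lies in `L[1/q]` -/
theorem loc_exists_pow_mul_eq [IsIntegrallyClosed O] (h : ChartCore q u v δ e p1 p2 a δ' Y)
    [(ptIdeal q u Y : Ideal B).IsPrime] [IsLocalization.AtPrime L (ptIdeal q u Y : Ideal B)]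
    {K : Type*} [Field K] [Algebra L K] [IsFractionRing L K] [Algebra B K]
    [IsScalarTower B L K] [Algebra O K] [IsScalarTower O B K] (x : K) (hx : IsIntegral L x) :
    ∃ (r : ℕ) (y : L), algebraMap L K y =
      algebraMap L K (algebraMap B L (algebraMap O B q)) ^ r * x := by
  haveI : IsDomain L := loc_isDomain (ptIdeal q u Y : Ideal B)
  have hinjBL : Function.Injective (algebraMap B L) :=
    loc_injective (L := L) (ptIdeal q u Y : Ideal B)
  have hinjLK : Function.Injective (algebraMap L K) := IsFractionRing.injective L K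
  have hinjBK : Function.Injective (algebraMap B K) := by
    rw [IsScalarTower.algebraMap_eq B L K]
    exact hinjLK.comp hinjBL
  have hinjOK : Function.Injective (algebraMap O K) := by
    rw [IsScalarTower.algebraMap_eq O B K]
    exact hinjBK.comp h.inj
  -- the fraction field of `L` is the fraction field of `O`
  haveI : FaithfulSMul O K := (faithfulSMul_iff_algebraMap_injective O K).mpr hinjOK
  haveI : IsFractionRing O K := by
    refine IsFractionRing.of_field O K fun z => ?_
    obtain ⟨l1, l2, hl2, rfl⟩ := IsFractionRing.div_surjective (A := L) z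
    obtain ⟨⟨b1, s1⟩, hb1⟩ := IsLocalization.surj (ptIdeal q u Y : Ideal B).primeCompl l1
    obtain ⟨⟨b2, s2⟩, hb2⟩ := IsLocalization.surj (ptIdeal q u Y : Ideal B).primeCompl l2
    simp only at hb1 hb2
    have hl2' : l2 ≠ 0 := nonZeroDivisors.ne_zero hl2
    have hs1 : (s1 : B) ≠ 0 := fun h0 => s1.2 (h0 ▸ Ideal.zero_mem _)
    have hs2 : (s2 : B) ≠ 0 := fun h0 => s2.2 (h0 ▸ Ideal.zero_mem _)
    obtain ⟨N1, hN1⟩ := h.exists_uB_pow_mul_eq (b1 * (s2 : B))
    obtain ⟨N2, hN2⟩ := h.exists_uB_pow_mul_eq (b2 * (s1 : B))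
    obtain ⟨o1, ho1⟩ := hN1 (max N1 N2) (le_max_left _ _)
    obtain ⟨o2, ho2⟩ := hN2 (max N1 N2) (le_max_right _ _)
    refine ⟨o1, o2, ?_⟩
    have hK1 : algebraMap O K o1 = algebraMap B K (algebraMap O B u ^ max N1 N2) *
        (algebraMap L K l1 * algebraMap B K (s1 : B) * algebraMap B K (s2 : B)) := by
      rw [IsScalarTower.algebraMap_apply O B K, ← ho1, map_mul, map_mul,
        IsScalarTower.algebraMap_apply B L K b1, ← hb1, map_mul,
        ← IsScalarTower.algebraMap_apply B L K]
    have hK2 : algebraMap O K o2 = algebraMap B K (algebraMap O B u ^ max N1 N2) *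
        (algebraMap L K l2 * algebraMap B K (s2 : B) * algebraMap B K (s1 : B)) := by
      rw [IsScalarTower.algebraMap_apply O B K, ← ho2, map_mul, map_mul,
        IsScalarTower.algebraMap_apply B L K b2, ← hb2, map_mul,
        ← IsScalarTower.algebraMap_apply B L K]
    have hu0 : algebraMap B K (algebraMap O B u ^ max N1 N2) ≠ 0 := fun h0 =>
      pow_ne_zero _ h.uB_ne_zero (hinjBK (h0.trans (map_zero _).symm))
    have hs10 : algebraMap B K (s1 : B) ≠ 0 := fun h0 =>
      hs1 (hinjBK (h0.trans (map_zero _).symm))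
    have hs20 : algebraMap B K (s2 : B) ≠ 0 := fun h0 =>
      hs2 (hinjBK (h0.trans (map_zero _).symm))
    have hl20 : algebraMap L K l2 ≠ 0 := fun h0 =>
      hl2' (hinjLK (h0.trans (map_zero _).symm))
    rw [hK1, hK2]
    field_simp
  -- step 1: clear the denominator
  obtain ⟨s, hs⟩ := IsIntegral.exists_multiple_integral_of_isLocalization
    (ptIdeal q u Y : Ideal B).primeCompl x hx
  -- step 2: clear the powers of `Y`
  obtain ⟨N, hN⟩ := h.exists_isIntegral_uB_pow_mul (s • x) hs
  -- step 3: `O` is integrally closed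
  obtain ⟨o, ho⟩ := IsIntegrallyClosed.algebraMap_eq_of_integral hN
  -- step 4: back to `L`
  have hwu : IsUnit (algebraMap B L (algebraMap O B (δ' ^ N) * (s : B))) := by
    rw [map_mul]
    exact (((h.hδ'.pow N).map (algebraMap O B)).map (algebraMap B L)).mul
      (IsLocalization.map_units L s)
  obtain ⟨t, ht⟩ := hwu.exists_right_inv
  refine ⟨a * N, algebraMap B L (Y ^ N * algebraMap O B o) * t, ?_⟩
  have hw0 : algebraMap L K (algebraMap B L (algebraMap O B (δ' ^ N) * (s : B))) ≠ 0 :=
    fun h0 => hwu.ne_zero (hinjLK (h0.trans (map_zero _).symm))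
  apply mul_right_cancel₀ hw0
  rw [← map_mul, mul_assoc, mul_comm t, ht, mul_one]
  -- both sides in terms of `B → K`
  have e1 : algebraMap O B u ^ N * Y ^ N = algebraMap O B ((q ^ a * δ') ^ N) := by
    rw [h.uB_pow_mul_Y_pow (le_refl N), Nat.sub_self, pow_zero, mul_one]
  have e2 : algebraMap B K (algebraMap O B o) =
      algebraMap B K (algebraMap O B u ^ N) * (algebraMap B K (s : B) * x) := by
    rw [← IsScalarTower.algebraMap_apply O B K, ho, Submonoid.smul_def, Algebra.smul_def]
  have e3 : algebraMap B K (Y ^ N) *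
      (algebraMap B K (algebraMap O B u ^ N) * (algebraMap B K (s : B) * x)) =
      algebraMap B K (algebraMap O B u ^ N * Y ^ N) * (algebraMap B K (s : B) * x) := by
    rw [map_mul]; ring
  have e4 : algebraMap B K (Y ^ N * algebraMap O B o) =
      algebraMap B K (algebraMap O B q) ^ (a * N) * x *
        algebraMap B K (algebraMap O B (δ' ^ N) * (s : B)) := by
    rw [map_mul, e2, e3, e1]
    simp only [map_mul, map_pow, mul_pow, ← pow_mul]
    ring
  rw [← IsScalarTower.algebraMap_apply B L K, ← IsScalarTower.algebraMap_apply B L K,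
    ← IsScalarTower.algebraMap_apply B L K]
  exact e4

/-- **Normality.**  If `O` is integrally closed, so is the local ring of the new crossing point
(reduced special fibre + `B ⊆ O[1/u]`, criterion of `BR3/NormalCrit`). -/
theorem loc_isIntegrallyClosed [IsIntegrallyClosed O] (h : ChartCore q u v δ e p1 p2 a δ' Y)
    [(ptIdeal q u Y : Ideal B).IsPrime] [IsLocalization.AtPrime L (ptIdeal q u Y : Ideal B)] :
    IsIntegrallyClosed L := by
  haveI : IsDomain L := loc_isDomain (ptIdeal q u Y : Ideal B)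
  have hinjBL : Function.Injective (algebraMap B L) :=
    loc_injective (L := L) (ptIdeal q u Y : Ideal B)
  have hqL : algebraMap B L (algebraMap O B q) ≠ 0 := fun h0 =>
    h.qB_ne_zero (hinjBL (h0.trans (map_zero _).symm))
  refine NormalCrit.isIntegrallyClosed_of_reduced_fibre hqL (fun y hy => h.loc_reduced y hy) ?_
  intro x hx
  letI algOL : Algebra O L := ((algebraMap B L).comp (algebraMap O B)).toAlgebra
  haveI : IsScalarTower O B L := IsScalarTower.of_algebraMap_eq fun _ => rfl
  haveI : IsScalarTower O B (FractionRing L) := IsScalarTower.of_algebraMap_eq fun o => by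
    rw [IsScalarTower.algebraMap_apply O L (FractionRing L),
      IsScalarTower.algebraMap_apply B L (FractionRing L)]
    rfl
  exact h.loc_exists_pow_mul_eq x hx

end Localisations

end ChartCore

end Chart

end Fermat.Agent.BR3.SubAnnChart
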