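/-
Program C (S36), node A7s (SUB-ANNULUS LEVELS), level side, part 1 (helper5): the local ring of the
sub-annulus `{|ρ₀| < |u| < 1}` of a finite level `NL : S0.NodeLevel A T u v ε₀ thick`, inside the
function field.

`ρ₀ ∈ NL.K'` with `|thick| < |ρ₀| < 1`, `Y := ρ₀ • u⁻¹` (so `u Y = ρ₀`).

* `chartRing R Y = R[Y] ⊆ F` (`mem_chartRing_iff`, `le_chartRing`, `chartRing_eq_closure`,
  `chart_gen`, `coe_aeval_chart`);
* `exists_nodeCore` : the base-ring-free node `NodeCore` of a level, with explicit exponent and unit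
  (`thick = ϖ ^ e η`);
* `SubHyp NL ρ₀` : the hypotheses (`uv`, the radius, and `htr`: a polynomial relation `P(Y) = 0`
  over `NL.R` has non-unit coefficients — true by the circle valuation, see `Family.lean`);
* `SubHyp.chartCore` : the chart `NL.R[Y]` satisfies `ChartCore` of `BR3/SubAnnChart/Core`;
* `subPt`, `subRing H : Subring F` : the local ring `locSub (NL.R[Y]) (ϖ, u, Y)`; `le_subRing`
  (the old level ring is contained in the new one), `subRing_le_of_le` (it stays inside any
  subfield containing `NL.R` and `ρ₀`);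
* the ring fields of a `NodeLevel A T' u (ρ₀ • u⁻¹) 1 ρ₀` for `subRing H`: noetherian, integrally
  closed, local, `nonunit_mem`, the two branches `subP1 H = (ϖ, u)` (exceptional component),
  `subP2 H = (ϖ, Y)` (old branch `p2`), `vertical`, `residue`.
-/
import Mathlib
import Fermat.Agent.BR.S0.AnnulusDescent
import Fermat.Agent.BR.S0.AnnulusN2Level
import Fermat.Agent.BR.S0.TubeDict
import Fermat.Agent.BR.Inst.LocSub
import Fermat.Agent.BR3.SubAnnChart.Core

set_option autoImplicit false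
set_option linter.unusedSectionVars false
set_option linter.style.haveILetI false

namespace Fermat.Agent.BR3.SubAnnChart

open IsLocalRing Polynomial AlgebraicCurve Fermat.Agent.Red Fermat.Agent.BR.Centre
  Fermat.Agent.BR.S0 Fermat.Agent.BR.S0.AnnulusN2Level Fermat.Agent.BR.Inst.LocSub

/-! ### The ring `R[Y]` inside a field -/

section ChartRing

variable {F : Type*} [Field F] (R : Subring F) (Y : F)

/-- the subring `R[Y]` of `F` -/
def chartRing : Subring F := (Algebra.adjoin R ({Y} : Set F)).toSubring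

variable {R Y}

theorem mem_chartRing_iff {x : F} : x ∈ chartRing R Y ↔ ∃ P : R[X], aeval Y P = x := by
  change x ∈ Algebra.adjoin R ({Y} : Set F) ↔ _
  rw [Algebra.adjoin_singleton_eq_range_aeval]
  rfl

variable (R Y)

theorem le_chartRing : R ≤ chartRing R Y := fun x hx =>
  (Algebra.adjoin R ({Y} : Set F)).algebraMap_mem ⟨x, hx⟩

theorem self_mem_chartRing : Y ∈ chartRing R Y :=
  Algebra.self_mem_adjoin_singleton R Y

theorem chartRing_eq_closure : chartRing R Y = Subring.closure ((R : Set F) ∪ {Y}) := by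
  rw [chartRing, Algebra.adjoin_eq_ring_closure]
  congr 2
  ext x
  constructor
  · rintro ⟨a, rfl⟩
    exact a.2
  · intro hx
    exact ⟨⟨x, hx⟩, rfl⟩

theorem chartRing_mono {R' : Subring F} (h : R ≤ R') : chartRing R Y ≤ chartRing R' Y := by
  rw [chartRing_eq_closure, chartRing_eq_closure]
  exact Subring.closure_mono (Set.union_subset_union_left _ h)

/-- the algebra structure of `R[Y]` over `R` -/
instance algebraChart : Algebra R (chartRing R Y) :=
  (Subring.inclusion (le_chartRing R Y)).toAlgebra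

variable {R Y}

@[simp] theorem coe_algebraMap_chart (o : R) :
    ((algebraMap R (chartRing R Y) o : chartRing R Y) : F) = o := rfl

theorem algebraMap_chart_injective : Function.Injective (algebraMap R (chartRing R Y)) := by
  intro a b hab
  apply Subtype.ext
  have := congrArg (fun z : chartRing R Y => (z : F)) hab
  simpa only [coe_algebraMap_chart] using this

variable (R Y)

/-- the generator `Y` of `R[Y]` -/
def chartGen : chartRing R Y := ⟨Y, self_mem_chartRing R Y⟩

variable {R Y}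

@[simp] theorem coe_chartGen : ((chartGen R Y : chartRing R Y) : F) = Y := rfl

theorem coe_aeval_chart (P : R[X]) :
    ((aeval (chartGen R Y) P : chartRing R Y) : F) = aeval Y P := by
  have h1 : ((aeval (chartGen R Y) P : chartRing R Y) : F) =
      (chartRing R Y).subtype (eval₂ (algebraMap R (chartRing R Y)) (chartGen R Y) P) := rfl
  rw [h1, Polynomial.hom_eval₂]
  rfl

theorem chart_gen : Algebra.adjoin R {chartGen R Y} = (⊤ : Subalgebra R (chartRing R Y)) := by
  rw [eq_top_iff]
  rintro ⟨x, hx⟩ -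
  obtain ⟨P, rfl⟩ := mem_chartRing_iff.mp hx
  rw [Algebra.adjoin_singleton_eq_range_aeval]
  exact ⟨P, Subtype.ext (coe_aeval_chart P)⟩

end ChartRing

/-! ### The base-ring-free node of a level -/

section Level

open ChartCore

variable {K F : Type*} [Field K] [Field F] [Algebra K F]
variable {A : ValuationSubring K} {T : Set (Place K F)} {u v ε₀ : F} {thick : K}

/-- a constant of `K'` of valuation one is a unit of the level ring -/
theorem exists_const_unit (NL : NodeLevel A T u v ε₀ thick) {η : K} (hη : η ∈ NL.K')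
    (hval : A.valuation η = 1) : ∃ x : NL.R, (x : F) = algebraMap K F η ∧ IsUnit x := by
  have hηA : η ∈ A := (A.valuation_le_one_iff η).mp hval.le
  have hη0 : η ≠ 0 := by
    intro h0
    rw [h0, map_zero] at hval
    exact zero_ne_one hval
  have hηinvA : η⁻¹ ∈ A := by
    rw [← A.valuation_le_one_iff, map_inv₀, hval, inv_one]
  refine ⟨⟨algebraMap K F η, NL.const_mem η hη hηA⟩, rfl, ?_⟩
  refine IsUnit.of_mul_eq_one
    (⟨algebraMap K F η⁻¹, NL.const_mem _ (NL.K'.inv_mem hη) hηinvA⟩ : NL.R) ?_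
  apply Subtype.ext
  simp only [Subring.coe_mul, Subring.coe_one]
  rw [← map_mul, mul_inv_cancel₀ hη0, map_one]

/-- a constant of `K'` of valuation `< 1` is `ϖ ^ n η` with `η` a unit constant -/
theorem exists_eq_unif_pow_mul (NL : NodeLevel A T u v ε₀ thick) {c : K} (hc0 : c ≠ 0)
    (hc1 : A.valuation c < 1) (hcK : c ∈ NL.K') :
    ∃ n : ℕ, 1 ≤ n ∧ ∃ η : K, η ∈ NL.K' ∧ A.valuation η = 1 ∧ c = NL.ϖ ^ n * η := by
  haveI := NL.noeth
  haveI := NL.isLocal
  exact exists_thick_eq A hc0 hc1 NL.R NL.K' NL.ϖ NL.const_mem NL.unif_mem NL.unif_ne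
    NL.unif_max hcK NL.unif_memR NL.not_isUnit_πR

/-- **The base-ring-free node of a level**, with its exponent and unit made explicit:
`thick = ϖ ^ e η`, `δ = η ε₀`. -/
theorem exists_nodeCore (NL : NodeLevel A T u v ε₀ thick) (thick_ne : thick ≠ 0)
    (thick_lt : A.valuation thick < 1) (uv : u * v = thick • ε₀) :
    ∃ (e : ℕ) (η : K) (δ : NL.R), 1 ≤ e ∧ η ∈ NL.K' ∧ A.valuation η = 1 ∧
      thick = NL.ϖ ^ e * η ∧ (δ : F) = algebraMap K F η * ε₀ ∧
      NodeCore NL.πR NL.uR NL.vR δ e NL.p1 NL.p2 := by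
  obtain ⟨e, he1, η, hηK', hηval, hthick⟩ :=
    exists_eq_unif_pow_mul NL thick_ne thick_lt NL.thick_mem
  obtain ⟨ηR, hηR, hηu⟩ := exists_const_unit NL hηK' hηval
  have huR0 : NL.uR ≠ 0 := fun h0 => NL.u_notMem_p2 (by
    have : (⟨u, NL.u_mem⟩ : NL.R) = 0 := h0
    rw [this]; exact NL.p2.zero_mem)
  have hvR0 : NL.vR ≠ 0 := fun h0 => NL.v_notMem_p1 (by
    have : (⟨v, NL.v_mem⟩ : NL.R) = 0 := h0
    rw [this]; exact NL.p1.zero_mem)
  have hε₀0 : ε₀ ≠ 0 := by
    intro h0
    rw [h0, smul_zero] at uv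
    rcases mul_eq_zero.mp uv with h | h
    · exact huR0 (Subtype.ext h)
    · exact hvR0 (Subtype.ext h)
  have hεu : IsUnit (⟨ε₀, NL.ε₀_mem⟩ : NL.R) := by
    refine IsUnit.of_mul_eq_one (⟨ε₀⁻¹, NL.ε₀_inv_mem⟩ : NL.R) ?_
    apply Subtype.ext
    simp only [Subring.coe_mul, Subring.coe_one]
    exact mul_inv_cancel₀ hε₀0
  refine ⟨e, η, ηR * ⟨ε₀, NL.ε₀_mem⟩, he1, hηK', hηval, hthick, ?_, ?_⟩
  · rw [Subring.coe_mul, hηR]
  · exact
      { prime1 := NL.prime1
        prime2 := NL.prime2
        hq1 := NL.unif_mem_p1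
        hq2 := NL.unif_mem_p2
        hu := NL.u_mem_p1
        hv := NL.v_mem_p2
        hv1 := NL.v_notMem_p1
        hu2 := NL.u_notMem_p2
        hmax := NL.nonunit_mem
        hδ := hηu.mul hεu
        he := he1
        huv := by
          apply Subtype.ext
          simp only [Subring.coe_mul, SubmonoidClass.coe_pow, hηR]
          have h1 : algebraMap K F thick = algebraMap K F NL.ϖ ^ e * algebraMap K F η := by
            rw [← map_pow, ← map_mul, ← hthick]
          rw [uv, Algebra.smul_def, h1]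
          ring }

/-! ### The chart of a level -/

/-- the level ring is local (local instance) -/
theorem isLocalRing_level (NL : NodeLevel A T u v ε₀ thick) : IsLocalRing NL.R := NL.isLocal

theorem isNoetherianRing_level (NL : NodeLevel A T u v ε₀ thick) : IsNoetherianRing NL.R :=
  NL.noeth

theorem isIntegrallyClosed_level (NL : NodeLevel A T u v ε₀ thick) : IsIntegrallyClosed NL.R :=
  NL.intClosed

attribute [local instance] isLocalRing_level isNoetherianRing_level isIntegrallyClosed_level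

/-- The hypotheses on a level `NL` and a radius `ρ₀` for the sub-annulus `{|ρ₀| < |u| < 1}`. -/
structure SubHyp (NL : NodeLevel A T u v ε₀ thick) (r : K) : Prop where
  thick_ne : thick ≠ 0
  thick_lt : A.valuation thick < 1
  uv : u * v = thick • ε₀
  r_mem : r ∈ NL.K'
  lt_r : A.valuation thick < A.valuation r
  r_lt : A.valuation r < 1
  /-- a polynomial relation `P(Y) = 0`, `Y = ρ₀ / u`, over the level ring has non-unit
  coefficients (the residue of `Y` on the circle `|u| = |ρ₀|` is transcendental) -/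
  htr : ∀ P : (NL.R)[X], aeval (r • u⁻¹) P = 0 → ∀ i, ¬ IsUnit (P.coeff i)

namespace SubHyp

variable {NL : NodeLevel A T u v ε₀ thick} {r : K}

theorem r_ne_zero (H : SubHyp NL r) : r ≠ 0 := by
  intro h0
  have := H.lt_r
  rw [h0, map_zero] at this
  exact not_lt_zero this

theorem u_ne_zero (_H : SubHyp NL r) : u ≠ 0 := by
  intro h0
  apply NL.u_notMem_p2
  have : (⟨u, NL.u_mem⟩ : NL.R) = 0 := Subtype.ext h0
  rw [this]
  exact NL.p2.zero_mem

/-- `u Y = ρ₀` -/
theorem u_mul_Y (H : SubHyp NL r) : u * (r • u⁻¹) = algebraMap K F r := by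
  rw [Algebra.smul_def, mul_comm, mul_assoc, inv_mul_cancel₀ H.u_ne_zero, mul_one]

/-- **The chart `NL.R[ρ₀ / u]` of a level satisfies `ChartCore`.** -/
theorem exists_chartCore (H : SubHyp NL r) :
    ∃ (e a : ℕ) (δ δ' : NL.R) (ηr : K), ηr ∈ NL.K' ∧ A.valuation ηr = 1 ∧ r = NL.ϖ ^ a * ηr ∧
      (δ' : F) = algebraMap K F ηr ∧
      ChartCore NL.πR NL.uR NL.vR δ e NL.p1 NL.p2 a δ' (chartGen NL.R (r • u⁻¹)) := by
  obtain ⟨e, η, δ, he1, hηK, hηv, hthick, hδ, hcore⟩ :=
    exists_nodeCore NL H.thick_ne H.thick_lt H.uv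
  obtain ⟨a, ha1, ηr, hηrK, hηrv, hr⟩ := exists_eq_unif_pow_mul NL H.r_ne_zero H.r_lt H.r_mem
  obtain ⟨δ', hδ', hδ'u⟩ := exists_const_unit NL hηrK hηrv
  have hae : a < e := by
    by_contra hcon
    rw [not_lt] at hcon
    have h1 := H.lt_r
    rw [hthick, hr, map_mul, map_mul, map_pow, map_pow, hηv, hηrv, mul_one, mul_one] at h1
    exact absurd (pow_le_pow_right_of_le_one' NL.unif_lt.le hcon) (not_le.mpr h1)
  have hπ0 : NL.πR ≠ 0 := by
    intro h0
    have : algebraMap K F NL.ϖ = 0 := congrArg Subtype.val h0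
    exact NL.unif_ne ((algebraMap K F).injective (this.trans (map_zero _).symm))
  refine ⟨e, a, δ, δ', ηr, hηrK, hηrv, hr, hδ', ?_⟩
  exact
    { node := hcore
      hq0 := hπ0
      inj := algebraMap_chart_injective
      pos := ha1
      lt := hae
      hδ' := hδ'u
      hY := by
        apply Subtype.ext
        simp only [Subring.coe_mul, coe_algebraMap_chart, coe_chartGen, SubmonoidClass.coe_pow,
          hδ']
        rw [H.u_mul_Y, hr, map_mul, map_pow]
      gen := chart_gen
      htr := fun P hP i => by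
        rw [IsLocalRing.mem_maximalIdeal]
        refine H.htr P ?_ i
        rw [← coe_aeval_chart, hP]
        rfl }

/-! ### The local ring of the sub-annulus -/

variable (NL r) in
/-- the new crossing point `(ϖ, u, Y)` of the chart `NL.R[Y]`, `Y = ρ₀ / u` -/
abbrev _root_.Fermat.Agent.BR3.SubAnnChart.subPt : Ideal (chartRing NL.R (r • u⁻¹)) :=
  ptIdeal NL.πR NL.uR (chartGen NL.R (r • u⁻¹))

theorem subPt_isMaximal (H : SubHyp NL r) : (subPt NL r).IsMaximal := by
  obtain ⟨e, a, δ, δ', ηr, -, -, -, -, h⟩ := H.exists_chartCore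
  exact h.ptIdeal_isMaximal

theorem subPt_isPrime (H : SubHyp NL r) : (subPt NL r).IsPrime := H.subPt_isMaximal.isPrime

/-- **The local ring of the sub-annulus `{|ρ₀| < |u| < 1}` at the level `NL`**:
the localisation of `NL.R[ρ₀ / u]` at `(ϖ, u, ρ₀ / u)`, as a subring of `F`. -/
abbrev subRing (H : SubHyp NL r) : Subring F :=
  @locSub F _ (chartRing NL.R (r • u⁻¹)) (subPt NL r) H.subPt_isPrime

theorem mem_subRing_iff (H : SubHyp NL r) {x : F} :
    x ∈ H.subRing ↔ ∃ a b : chartRing NL.R (r • u⁻¹), b ∉ subPt NL r ∧ x * (b : F) = (a : F) :=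
  Iff.rfl

theorem chart_le_subRing (H : SubHyp NL r) : chartRing NL.R (r • u⁻¹) ≤ H.subRing :=
  @le_locSub F _ (chartRing NL.R (r • u⁻¹)) (subPt NL r) H.subPt_isPrime

/-- the old level ring is contained in the new one -/
theorem le_subRing (H : SubHyp NL r) : NL.R ≤ H.subRing :=
  (le_chartRing _ _).trans H.chart_le_subRing

theorem unif_mem_subRing (H : SubHyp NL r) : algebraMap K F NL.ϖ ∈ H.subRing :=
  H.le_subRing NL.unif_memR

theorem u_mem_subRing (H : SubHyp NL r) : u ∈ H.subRing := H.le_subRing NL.u_mem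

theorem Y_mem_subRing (H : SubHyp NL r) : r • u⁻¹ ∈ H.subRing :=
  H.chart_le_subRing (self_mem_chartRing _ _)

theorem const_mem_subRing (H : SubHyp NL r) (c : K) (hc : c ∈ NL.K') (hcA : c ∈ A) :
    algebraMap K F c ∈ H.subRing := H.le_subRing (NL.const_mem c hc hcA)

/-- the new local ring stays inside any subfield containing the old one and the radius -/
theorem subRing_le_of_le (H : SubHyp NL r) (E : Subfield F) (hR : ∀ x ∈ NL.R, x ∈ E)
    (hr : algebraMap K F r ∈ E) : ∀ x ∈ H.subRing, x ∈ E := by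
  have hY : r • u⁻¹ ∈ E := by
    rw [Algebra.smul_def]
    exact E.mul_mem hr (E.inv_mem (hR u NL.u_mem))
  have hC : ∀ x ∈ chartRing NL.R (r • u⁻¹), x ∈ E := by
    intro x hx
    rw [chartRing_eq_closure] at hx
    induction hx using Subring.closure_induction with
    | mem y hy =>
      rcases hy with hy | hy
      · exact hR y hy
      · rw [Set.mem_singleton_iff.mp hy]; exact hY
    | zero => exact E.zero_mem
    | one => exact E.one_mem
    | add _ _ _ _ hx hy => exact E.add_mem hx hy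
    | neg _ _ hx => exact E.neg_mem hx
    | mul _ _ _ _ hx hy => exact E.mul_mem hx hy
  intro x hx
  obtain ⟨a, b, hb, hab⟩ := H.mem_subRing_iff.mp hx
  have hb0 : (b : F) ≠ 0 := by
    haveI := H.subPt_isPrime
    exact coe_ne_zero_of_notMem hb
  have : x = (a : F) * ((b : F))⁻¹ := by
    rw [← hab, mul_assoc, mul_inv_cancel₀ hb0, mul_one]
  rw [this]
  exact E.mul_mem (hC a a.2) (E.inv_mem (hC b b.2))

theorem isLocalRing_subRing (H : SubHyp NL r) : IsLocalRing H.subRing :=
  @isLocalRing_locSub F _ (chartRing NL.R (r • u⁻¹)) (subPt NL r) H.subPt_isPrime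

theorem isNoetherianRing_subRing (H : SubHyp NL r) : IsNoetherianRing H.subRing := by
  obtain ⟨e, a, δ, δ', ηr, -, -, -, -, h⟩ := H.exists_chartCore
  haveI := H.subPt_isPrime
  haveI : IsNoetherianRing (chartRing NL.R (r • u⁻¹)) := h.isNoetherianRing
  exact isNoetherianRing_locSub (chartRing NL.R (r • u⁻¹)) (subPt NL r)

theorem isIntegrallyClosed_subRing (H : SubHyp NL r) : IsIntegrallyClosed H.subRing := by
  obtain ⟨e, a, δ, δ', ηr, -, -, -, -, h⟩ := H.exists_chartCore
  haveI hp : (ptIdeal NL.πR NL.uR (chartGen NL.R (r • u⁻¹))).IsPrime := H.subPt_isPrime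
  exact h.loc_isIntegrallyClosed (L := H.subRing)

/-- the maximal ideal of the new local ring is `(ϖ, u, Y)` -/
theorem nonunit_mem_subRing (H : SubHyp NL r) (x : H.subRing) (hx : ¬ IsUnit x) :
    x ∈ Ideal.span {(⟨algebraMap K F NL.ϖ, H.unif_mem_subRing⟩ : H.subRing),
      ⟨u, H.u_mem_subRing⟩, ⟨r • u⁻¹, H.Y_mem_subRing⟩} := by
  haveI hp : (ptIdeal NL.πR NL.uR (chartGen NL.R (r • u⁻¹))).IsPrime := H.subPt_isPrime
  exact loc_mem_span_of_not_isUnit (L := H.subRing) (q := NL.πR) (u := NL.uR)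
    (Y := chartGen NL.R (r • u⁻¹)) hx

/-- the exceptional component `(ϖ, u)` of the new local ring -/
def subP1 (H : SubHyp NL r) : Ideal H.subRing :=
  (Ideal.span {algebraMap NL.R (chartRing NL.R (r • u⁻¹)) NL.πR,
    algebraMap NL.R (chartRing NL.R (r • u⁻¹)) NL.uR}).map
    (algebraMap (chartRing NL.R (r • u⁻¹)) H.subRing)

/-- the old branch `(ϖ, Y)` (strict transform of `p2`) of the new local ring -/
def subP2 (H : SubHyp NL r) : Ideal H.subRing :=
  (Ideal.span {algebraMap NL.R (chartRing NL.R (r • u⁻¹)) NL.πR,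
    chartGen NL.R (r • u⁻¹)}).map (algebraMap (chartRing NL.R (r • u⁻¹)) H.subRing)

/-- the node of the new local ring -/
theorem exists_nodeCore_subRing (H : SubHyp NL r) :
    ∃ (a : ℕ) (δ' : H.subRing), NodeCore
      (⟨algebraMap K F NL.ϖ, H.unif_mem_subRing⟩ : H.subRing) ⟨u, H.u_mem_subRing⟩
      ⟨r • u⁻¹, H.Y_mem_subRing⟩ δ' a H.subP1 H.subP2 := by
  obtain ⟨e, a, δ, δ', ηr, -, -, -, -, h⟩ := H.exists_chartCore
  haveI hp : (ptIdeal NL.πR NL.uR (chartGen NL.R (r • u⁻¹))).IsPrime := H.subPt_isPrime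
  exact ⟨a, _, h.loc_nodeCore (L := H.subRing)⟩

theorem vertical_subRing (H : SubHyp NL r) (Q : Ideal H.subRing) (hQ : Q.IsPrime)
    (hht : Q.height = 1)
    (hϖ : (⟨algebraMap K F NL.ϖ, H.unif_mem_subRing⟩ : H.subRing) ∈ Q) :
    Q = H.subP1 ∨ Q = H.subP2 := by
  obtain ⟨e, a, δ, δ', ηr, -, -, -, -, h⟩ := H.exists_chartCore
  haveI hp : (ptIdeal NL.πR NL.uR (chartGen NL.R (r • u⁻¹))).IsPrime := H.subPt_isPrime
  exact h.loc_vertical (L := H.subRing) Q hQ hht hϖ

/-- a non-unit of the old level ring is a non-unit of the new one -/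
theorem not_isUnit_coe (H : SubHyp NL r) {o : NL.R} (ho : ¬ IsUnit o) :
    ¬ IsUnit (⟨(o : F), H.le_subRing o.2⟩ : H.subRing) := by
  obtain ⟨e, a, δ, δ', ηr, -, -, -, -, h⟩ := H.exists_chartCore
  haveI hp : (subPt NL r).IsPrime := H.subPt_isPrime
  have h1 : algebraMap NL.R (chartRing NL.R (r • u⁻¹)) o ∈ subPt NL r :=
    (h.algebraMap_mem_ptIdeal_iff o).mpr ((IsLocalRing.mem_maximalIdeal o).mpr ho)
  intro hu
  exact ((isUnit_coe_iff (n := subPt NL r)
    (algebraMap NL.R (chartRing NL.R (r • u⁻¹)) o)).mp hu) h1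

/-- the residue field of the new local ring is the residue field of `A` -/
theorem residue_subRing (H : SubHyp NL r) (y : H.subRing) :
    ∃ (a : A) (h : algebraMap K F a ∈ H.subRing),
      ¬ IsUnit (y - ⟨algebraMap K F a, h⟩) := by
  obtain ⟨e, a, δ, δ', ηr, -, -, -, -, h⟩ := H.exists_chartCore
  haveI hp : (ptIdeal NL.πR NL.uR (chartGen NL.R (r • u⁻¹))).IsPrime := H.subPt_isPrime
  haveI := H.isLocalRing_subRing
  obtain ⟨o, ho⟩ := h.loc_residue (L := H.subRing) y
  obtain ⟨c, hc, hoc⟩ := NL.residue o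
  refine ⟨c, H.le_subRing hc, ?_⟩
  have h2 := H.not_isUnit_coe hoc
  have e1 : y - ⟨algebraMap K F c, H.le_subRing hc⟩ =
      (y - algebraMap (chartRing NL.R (r • u⁻¹)) H.subRing
        (algebraMap NL.R (chartRing NL.R (r • u⁻¹)) o)) +
      ⟨((o - ⟨algebraMap K F c, hc⟩ : NL.R) : F), H.le_subRing (o - ⟨algebraMap K F c, hc⟩).2⟩ := by
    apply Subtype.ext
    change (y : F) - algebraMap K F c = ((y : F) - (o : F)) + ((o : F) - algebraMap K F c)
    ring
  rw [e1]
  exact IsLocalRing.nonunits_add ho h2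

/-! ### Places: the tube of the sub-annulus -/

variable (A T u r) in
/-- the tube of the sub-annulus `{|ρ₀| < |u| < 1}` -/
def _root_.Fermat.Agent.BR3.SubAnnChart.subTube : Set (Place K F) :=
  {P | P ∈ T ∧ A.valuation r < A.valuation (evalAt P u)}

theorem _root_.Fermat.Agent.BR3.SubAnnChart.mem_subTube_iff {P : Place K F} :
    P ∈ subTube A T u r ↔ P ∈ T ∧ A.valuation r < A.valuation (evalAt P u) := Iff.rfl

/-- the value of `Y = ρ₀ / u` at a place of the sub-annulus -/
theorem isValueAt_Y (_H : SubHyp NL r) {P : Place K F} (hP : P ∈ subTube A T u r) :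
    IsValueAt P (r • u⁻¹) (r * (evalAt P u)⁻¹) ∧ A.valuation (r * (evalAt P u)⁻¹) < 1 := by
  have hu : IsValueAt P u (evalAt P u) := NL.isValueAt_evalAt hP.1 NL.u_mem
  have hd0 : evalAt P u ≠ 0 := by
    intro h0
    have := hP.2
    rw [h0, map_zero] at this
    exact not_lt_zero this
  refine ⟨?_, ?_⟩
  · rw [Algebra.smul_def]
    exact (isValueAt_algebraMap P r).mul (IsValueAt.inv hu hd0)
  · rw [map_mul, map_inv₀]
    have hpos : 0 < A.valuation (evalAt P u) :=
      zero_lt_iff.mpr ((A.valuation).ne_zero_iff.mpr hd0)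
    rw [← div_eq_mul_inv, div_lt_one₀ hpos]
    exact hP.2

/-- the places of the sub-annulus are integral on the chart -/
theorem integralAt_chart (H : SubHyp NL r) {P : Place K F} (hP : P ∈ subTube A T u r) :
    IntegralAt A (chartRing NL.R (r • u⁻¹)) P := by
  rw [chartRing_eq_closure]
  apply IntegralAt.closure
  rintro y (hy | hy)
  · exact NL.integralAt hP.1 y hy
  · rw [Set.mem_singleton_iff.mp hy]
    obtain ⟨h1, h2⟩ := H.isValueAt_Y hP
    exact ⟨_, (A.valuation_le_one_iff _).mp h2.le, h1⟩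

/-- **`centred`**: the places of the sub-annulus are centred at the new local ring -/
theorem centred_subRing (H : SubHyp NL r) {P : Place K F} (hP : P ∈ subTube A T u r) :
    CentredAt A H.subRing P := by
  haveI hp : (subPt NL r).IsPrime := H.subPt_isPrime
  rw [TubeDict.centredAt_locSub_iff]
  refine ⟨H.integralAt_chart hP, ?_⟩
  have h1 : algebraMap NL.R (chartRing NL.R (r • u⁻¹)) NL.πR ∈
      centre (H.integralAt_chart hP) := by
    rw [mem_centre_iff, coe_algebraMap_chart]
    change A.valuation (evalAt P (algebraMap K F NL.ϖ)) < 1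
    rw [evalAt_eq_of_isValueAt (isValueAt_algebraMap P NL.ϖ)]
    exact NL.unif_lt
  have h2 : algebraMap NL.R (chartRing NL.R (r • u⁻¹)) NL.uR ∈
      centre (H.integralAt_chart hP) := by
    rw [mem_centre_iff, coe_algebraMap_chart]
    exact NL.valuation_evalAt_lt_one hP.1 NL.not_isUnit_uR
  have h3 : chartGen NL.R (r • u⁻¹) ∈ centre (H.integralAt_chart hP) := by
    rw [mem_centre_iff, coe_chartGen]
    obtain ⟨h1, h2⟩ := H.isValueAt_Y hP
    rw [evalAt_eq_of_isValueAt h1]
    exact h2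
  have hle : subPt NL r ≤ centre (H.integralAt_chart hP) := by
    rw [subPt, ptIdeal, Ideal.span_le, Set.insert_subset_iff, Set.insert_subset_iff,
      Set.singleton_subset_iff]
    exact ⟨h1, h2, h3⟩
  have heq := H.subPt_isMaximal.eq_of_le (centre_isPrime (H.integralAt_chart hP)).ne_top hle
  intro x
  rw [← heq]

/-- **Converse of `centred`** (helper19's (X1)): a place centred at the new local ring lies in the
tube of the sub-annulus, as soon as the places centred at the old local ring lie in `T`. -/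
theorem mem_subTube_of_centredAt (H : SubHyp NL r)
    (hT : ∀ P : Place K F, CentredAt A NL.R P → P ∈ T) {P : Place K F}
    (hc : CentredAt A H.subRing P) : P ∈ subTube A T u r := by
  obtain ⟨e, a, δ, δ', ηr, -, -, -, -, hcc⟩ := H.exists_chartCore
  haveI hp : (subPt NL r).IsPrime := H.subPt_isPrime
  obtain ⟨h, hcen⟩ := TubeDict.centredAt_locSub_iff.mp hc
  have hR : CentredAt A NL.R P := by
    refine ⟨h.mono (le_chartRing _ _), fun y hy => ?_⟩
    rw [mem_centre_iff]
    have h1 : algebraMap NL.R (chartRing NL.R (r • u⁻¹)) y ∈ subPt NL r :=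
      (hcc.algebraMap_mem_ptIdeal_iff y).mpr ((IsLocalRing.mem_maximalIdeal y).mpr hy)
    have h2 := (hcen _).mpr h1
    rw [mem_centre_iff] at h2
    exact h2
  refine ⟨hT P hR, ?_⟩
  -- `u(P) Y(P) = ρ₀` and `|Y(P)| < 1`
  have hY : chartGen NL.R (r • u⁻¹) ∈ subPt NL r := Ideal.subset_span (by simp)
  have hY' := (hcen _).mpr hY
  rw [mem_centre_iff] at hY'
  have hvu : IsValueAt P u (evalAt P u) :=
    h.isValueAt_evalAt (le_chartRing _ _ NL.u_mem)
  have hvY : IsValueAt P (r • u⁻¹) (evalAt P (r • u⁻¹)) :=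
    h.isValueAt_evalAt (self_mem_chartRing _ _)
  have hprod := hvu.mul hvY
  rw [H.u_mul_Y] at hprod
  have heq : evalAt P u * evalAt P (r • u⁻¹) = r := hprod.unique (isValueAt_algebraMap P r)
  have hu0 : evalAt P u ≠ 0 := by
    intro h0
    rw [h0, zero_mul] at heq
    exact H.r_ne_zero heq.symm
  have hpos : 0 < A.valuation (evalAt P u) :=
    zero_lt_iff.mpr ((A.valuation).ne_zero_iff.mpr hu0)
  calc A.valuation r = A.valuation (evalAt P u) * A.valuation (evalAt P (r • u⁻¹)) := by
        rw [← map_mul, heq]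
    _ < A.valuation (evalAt P u) * 1 := by
        exact mul_lt_mul_of_pos_left hY' hpos
    _ = A.valuation (evalAt P u) := mul_one _

/-- the places centred at the new local ring are exactly those of the sub-annulus -/
theorem centredAt_subRing_iff (H : SubHyp NL r)
    (hT : ∀ P : Place K F, CentredAt A NL.R P → P ∈ T) {P : Place K F} :
    CentredAt A H.subRing P ↔ P ∈ subTube A T u r :=
  ⟨H.mem_subTube_of_centredAt hT, H.centred_subRing⟩

/-- **`horiz`** from the K-point existence lemma on the new local ring (`hPL` = the conclusion of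
`PlaceLift.exists_centredAt_of_prime` / `S0.HorizProvider.exists_centredAt_of_horizontal`). -/
theorem horiz_subRing (H : SubHyp NL r)
    (hT : ∀ P : Place K F, CentredAt A NL.R P → P ∈ T)
    (hPL : ∀ p : Ideal H.subRing, p.IsPrime → p ≠ ⊥ →
      (⟨algebraMap K F NL.ϖ, H.unif_mem_subRing⟩ : H.subRing) ∉ p →
      ∃ P : Place K F, CentredAt A H.subRing P ∧ ∀ y : H.subRing, evalAt P (y : F) = 0 ↔ y ∈ p)
    (Q : Ideal H.subRing) (hQ : Q.IsPrime) (hht : Q.height = 1)
    (hϖ : (⟨algebraMap K F NL.ϖ, H.unif_mem_subRing⟩ : H.subRing) ∉ Q) :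
    ∃ P ∈ subTube A T u r, ∀ x : H.subRing, x ∈ Q ↔ evalAt P (x : F) = 0 := by
  obtain ⟨P, hc, hev⟩ := hPL Q hQ (Ideal.ne_bot_of_height_eq_one hht) hϖ
  exact ⟨P, H.mem_subTube_of_centredAt hT hc, fun x => (hev x).symm⟩

/-! ### The level of the sub-annulus -/

/-- **The finite level of the sub-annulus `{|ρ₀| < |u| < 1}`**: coordinates `(u, ρ₀ / u)`,
`ε₀ = 1`, thickness `ρ₀`, same `K'` and `ϖ`, local ring `subRing H ⊇ NL.R`. -/
noncomputable def level (H : SubHyp NL r)
    (hT : ∀ P : Place K F, CentredAt A NL.R P → P ∈ T)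
    (hPL : ∀ p : Ideal H.subRing, p.IsPrime → p ≠ ⊥ →
      (⟨algebraMap K F NL.ϖ, H.unif_mem_subRing⟩ : H.subRing) ∉ p →
      ∃ P : Place K F, CentredAt A H.subRing P ∧
        ∀ y : H.subRing, evalAt P (y : F) = 0 ↔ y ∈ p) :
    NodeLevel A (subTube A T u r) u (r • u⁻¹) 1 r :=
  nodeLevelOfFields A (subTube A T u r) H.r_ne_zero H.r_lt
    (by rw [H.u_mul_Y, Algebra.smul_def, mul_one])
    H.subRing NL.K' NL.ϖ H.isNoetherianRing_subRing H.isIntegrallyClosed_subRing
    H.isLocalRing_subRing H.const_mem_subRing NL.unif_mem NL.unif_ne NL.unif_lt NL.unif_max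
    H.r_mem H.unif_mem_subRing H.u_mem_subRing H.Y_mem_subRing (Subring.one_mem _)
    (by rw [inv_one]; exact Subring.one_mem _) H.nonunit_mem_subRing H.subP1 H.subP2
    (by obtain ⟨a, δ', h⟩ := H.exists_nodeCore_subRing; exact h.prime1)
    (by obtain ⟨a, δ', h⟩ := H.exists_nodeCore_subRing; exact h.prime2)
    (by obtain ⟨a, δ', h⟩ := H.exists_nodeCore_subRing; exact h.hq1)
    (by obtain ⟨a, δ', h⟩ := H.exists_nodeCore_subRing; exact h.hq2)
    (by obtain ⟨a, δ', h⟩ := H.exists_nodeCore_subRing; exact h.hu)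
    (by obtain ⟨a, δ', h⟩ := H.exists_nodeCore_subRing; exact h.hv)
    (by obtain ⟨a, δ', h⟩ := H.exists_nodeCore_subRing; exact h.hv1)
    (by obtain ⟨a, δ', h⟩ := H.exists_nodeCore_subRing; exact h.hu2)
    H.vertical_subRing H.residue_subRing (fun _ hP => H.centred_subRing hP)
    (H.horiz_subRing hT hPL)

@[simp] theorem level_R (H : SubHyp NL r) (hT) (hPL) : (H.level hT hPL).R = H.subRing := rfl

@[simp] theorem level_K' (H : SubHyp NL r) (hT) (hPL) : (H.level hT hPL).K' = NL.K' := rfl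

@[simp] theorem level_ϖ (H : SubHyp NL r) (hT) (hPL) : (H.level hT hPL).ϖ = NL.ϖ := rfl

@[simp] theorem level_p1 (H : SubHyp NL r) (hT) (hPL) : (H.level hT hPL).p1 = H.subP1 := rfl

@[simp] theorem level_p2 (H : SubHyp NL r) (hT) (hPL) : (H.level hT hPL).p2 = H.subP2 := rfl

end SubHyp

end Level

end Fermat.Agent.BR3.SubAnnChart
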