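/-
Program C (S36), node A7s (SUB-ANNULUS LEVELS), level side, part 2 (helper5): the transcendence
input `htr` from the points of the circle, and the family of levels of the sub-annulus.

`L : S0.AnnulusLevels A T ι`, `ρ₀ : K` with `|L.thick| < |ρ₀| < 1`.

* `spHom_eq_of_mem` : all places of the tube have the same specialisation on a level ring;
* `htr_of_levels` : a polynomial relation `P(ρ₀ / u) = 0` over a level ring has non-unit
  coefficients (evaluate at the points `u = ρ₀ / y`, `|y| = 1`, of the circle: the reduction of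
  `P` vanishes on `k^×`, `k` infinite);
* `subHyp` : `SubHyp (L.level i) ρ₀` for every level `i` with `ρ₀ ∈ K' i`;
* `subRing_mono` : the local rings of the sub-annulus grow with the level;
* `subLevels` : `AnnulusLevels A (subTube A T L.u ρ₀) {i // ρ₀ ∈ (L.level i).K'}` with coordinates
  `(L.u, ρ₀ • L.u⁻¹)`, `ε₀ = 1`, thickness `ρ₀`, and `rfl`-lemmas; exports (X1), (X2).
-/
import Mathlib
import Fermat.Agent.BR3.SubAnnChart.Level

set_option autoImplicit false
set_option linter.unusedSectionVars false
set_option linter.style.haveILetI false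

namespace Fermat.Agent.BR3.SubAnnChart

open IsLocalRing Polynomial AlgebraicCurve Fermat.Agent.Red Fermat.Agent.BR.Centre
  Fermat.Agent.BR.S0 Fermat.Agent.BR.S0.AnnulusN2Level Fermat.Agent.BR.Inst.LocSub ChartCore

variable {K F : Type*} [Field K] [Field F] [Algebra K F]
variable {A : ValuationSubring K} {T : Set (Place K F)}

attribute [local instance] isLocalRing_level isNoetherianRing_level isIntegrallyClosed_level

/-! ### The specialisation on a level ring does not depend on the place -/

section Sp

variable {u v ε₀ : F} {thick : K} (NL : NodeLevel A T u v ε₀ thick)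

/-- a non-unit of a level ring specialises to `0` at every place of the tube -/
theorem spHom_eq_zero_of_not_isUnit {P : Place K F} (hP : P ∈ T) {y : NL.R} (hy : ¬ IsUnit y) :
    spHom A NL.R P (NL.integralAt hP) y = 0 := by
  rw [spHom_eq_zero_iff]
  exact NL.valuation_evalAt_lt_one hP hy

/-- **all places of the tube have the same specialisation on a level ring** -/
theorem spHom_eq_of_mem {P P' : Place K F} (hP : P ∈ T) (hP' : P' ∈ T) (o : NL.R) :
    spHom A NL.R P (NL.integralAt hP) o = spHom A NL.R P' (NL.integralAt hP') o := by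
  obtain ⟨c, hc, hoc⟩ := NL.residue o
  have e : o = (o - ⟨algebraMap K F c, hc⟩) + ⟨algebraMap K F c, hc⟩ := by ring
  rw [e, map_add, map_add, spHom_eq_zero_of_not_isUnit NL hP hoc,
    spHom_eq_zero_of_not_isUnit NL hP' hoc, spHom_algebraMap, spHom_algebraMap]

end Sp

/-! ### The transcendence input from the points of the circle -/

section Htr

variable {ι : Type*} (L : AnnulusLevels A T ι) {r : K}

/-- the points of the circle `|u| = |ρ₀|`: for `|y| = 1` there is a place of the tube with
`u(P) = ρ₀ / y` -/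
theorem exists_circle_place (h1 : A.valuation L.thick < A.valuation r)
    (h2 : A.valuation r < 1) {y : K} (hy : A.valuation y = 1) :
    ∃ P ∈ T, IsValueAt P L.u (r * y⁻¹) := by
  have hv : A.valuation (r * y⁻¹) = A.valuation r := by
    rw [map_mul, map_inv₀, hy, inv_one, mul_one]
  obtain ⟨P, ⟨hP, hPu⟩, -⟩ := L.core.bij (r * y⁻¹) (by rw [hv]; exact h1) (by rw [hv]; exact h2)
  exact ⟨P, hP, hPu⟩

/-- a point of the circle is integral on the chart ring of every level, with `Y(P) = y` -/
theorem integralAt_chart_circle (h1 : A.valuation L.thick < A.valuation r) (i : ι) {y : K}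
    (hy : A.valuation y = 1) {P : Place K F} (hP : P ∈ T) (hPu : IsValueAt P L.u (r * y⁻¹)) :
    IsValueAt P (r • L.u⁻¹) y ∧ IntegralAt A (chartRing (L.level i).R (r • L.u⁻¹)) P := by
  have hr0 : r ≠ 0 := by
    intro h0
    rw [h0, map_zero] at h1
    exact not_lt_zero h1
  have hy0 : y ≠ 0 := by
    intro h0
    rw [h0, map_zero] at hy
    exact zero_ne_one hy
  have hd0 : r * y⁻¹ ≠ 0 := mul_ne_zero hr0 (inv_ne_zero hy0)
  have hY : IsValueAt P (r • L.u⁻¹) y := by
    have h3 := (isValueAt_algebraMap P r).mul (IsValueAt.inv hPu hd0)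
    rw [← Algebra.smul_def] at h3
    have e : r * (r * y⁻¹)⁻¹ = y := by
      field_simp
    rwa [e] at h3
  refine ⟨hY, ?_⟩
  rw [chartRing_eq_closure]
  apply IntegralAt.closure
  rintro z (hz | hz)
  · exact (L.level i).integralAt hP z hz
  · rw [Set.mem_singleton_iff.mp hz]
    exact ⟨y, (A.valuation_le_one_iff _).mp hy.le, hY⟩

variable [IsAlgClosed (ResidueField A)]

/-- **The transcendence input.**  A polynomial relation `P(ρ₀ / u) = 0` over a level ring has
non-unit coefficients. -/
theorem htr_of_levels (h1 : A.valuation L.thick < A.valuation r) (h2 : A.valuation r < 1)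
    (i : ι) (P : ((L.level i).R)[X]) (hP : aeval (r • L.u⁻¹) P = 0) (j : ℕ) :
    ¬ IsUnit (P.coeff j) := by
  classical
  obtain ⟨P₀, hP₀, -⟩ := exists_circle_place L h1 h2 (y := 1) (map_one _)
  have hzero : P.map (spHom A (L.level i).R P₀ ((L.level i).integralAt hP₀)) = 0 := by
    apply Polynomial.eq_zero_of_infinite_isRoot
    have hinf : ({0}ᶜ : Set (ResidueField A)).Infinite :=
      (Set.finite_singleton (0 : ResidueField A)).infinite_compl
    refine hinf.mono ?_
    intro yb hyb
    rw [Set.mem_compl_iff, Set.mem_singleton_iff] at hyb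
    obtain ⟨y, rfl⟩ := residue_surjective yb
    have hyu : IsUnit y := by
      by_contra hnu
      exact hyb ((residue_eq_zero_iff _).mpr ((IsLocalRing.mem_maximalIdeal _).mpr hnu))
    have hyv : A.valuation (y : K) = 1 := (A.valuation_eq_one_iff y).mp hyu
    obtain ⟨Q, hQ, hQu⟩ := exists_circle_place L h1 h2 hyv
    obtain ⟨hY, hI⟩ := integralAt_chart_circle L h1 i hyv hQ hQu
    have e0 : spHom A (chartRing (L.level i).R (r • L.u⁻¹)) Q hI
        (aeval (chartGen (L.level i).R (r • L.u⁻¹)) P) = 0 := by
      have : aeval (chartGen (L.level i).R (r • L.u⁻¹)) P = 0 := by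
        apply Subtype.ext
        rw [coe_aeval_chart, hP]
        rfl
      rw [this, map_zero]
    have e1 : spHom A (chartRing (L.level i).R (r • L.u⁻¹)) Q hI
        (aeval (chartGen (L.level i).R (r • L.u⁻¹)) P) =
        eval₂ ((spHom A (chartRing (L.level i).R (r • L.u⁻¹)) Q hI).comp
          (algebraMap (L.level i).R (chartRing (L.level i).R (r • L.u⁻¹))))
          (spHom A (chartRing (L.level i).R (r • L.u⁻¹)) Q hI
            (chartGen (L.level i).R (r • L.u⁻¹))) P := by
      rw [aeval_def, Polynomial.hom_eval₂]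
    have e2 : (spHom A (chartRing (L.level i).R (r • L.u⁻¹)) Q hI).comp
        (algebraMap (L.level i).R (chartRing (L.level i).R (r • L.u⁻¹))) =
        spHom A (L.level i).R P₀ ((L.level i).integralAt hP₀) := by
      ext o
      rw [RingHom.comp_apply, spHom_apply, coe_algebraMap_chart,
        ← spHom_apply ((L.level i).integralAt hQ) o]
      exact spHom_eq_of_mem (L.level i) hQ hP₀ o
    have e3 : spHom A (chartRing (L.level i).R (r • L.u⁻¹)) Q hI
        (chartGen (L.level i).R (r • L.u⁻¹)) = residue A y := by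
      have := spHom_apply_of_isValueAt hI (self_mem_chartRing _ _) hY
      rw [Fermat.Agent.BR.InertiaRed.resOf_of_mem A y.2] at this
      exact this
    rw [Set.mem_ofPred_eq, IsRoot.def, eval_map, ← e2, ← e3, ← e1, e0]
  intro hu
  have h3 : spHom A (L.level i).R P₀ ((L.level i).integralAt hP₀) (P.coeff j) = 0 := by
    have := congrArg (fun R => Polynomial.coeff R j) hzero
    simpa using this
  exact ((L.level i).integralAt hP₀).not_mem_centre_of_isUnit hu (RingHom.mem_ker.mpr h3)

end Htr

/-! ### Monotonicity of the local rings of the sub-annulus -/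

section Mono

variable {u v ε₀ : F} {thick : K} {NL NL' : NodeLevel A T u v ε₀ thick} {r : K}

/-- the local rings of the sub-annulus grow with the level -/
theorem subRing_mono (H : SubHyp NL r) (H' : SubHyp NL' r) (hR : NL.R ≤ NL'.R)
    (hK : NL.K' ≤ NL'.K') : H.subRing ≤ H'.subRing := by
  haveI hp : (subPt NL r).IsPrime := H.subPt_isPrime
  haveI hp' : (subPt NL' r).IsPrime := H'.subPt_isPrime
  obtain ⟨e', a', δ₁, δ₂, ηr, -, -, -, -, hcc'⟩ := H'.exists_chartCore
  have hC : chartRing NL.R (r • u⁻¹) ≤ chartRing NL'.R (r • u⁻¹) := chartRing_mono _ _ hR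
  refine locSub_mono hC ?_
  -- the contraction of the new point is the old point
  set J : Ideal (chartRing NL.R (r • u⁻¹)) := (subPt NL' r).comap (Subring.inclusion hC) with hJ
  have hJne : J ≠ ⊤ := (Ideal.comap_isPrime (Subring.inclusion hC) (subPt NL' r)).ne_top
  have h1 : algebraMap NL.R (chartRing NL.R (r • u⁻¹)) NL.πR ∈ J := by
    rw [hJ, Ideal.mem_comap]
    -- `ϖ` is a non-unit constant of the bigger level
    have hnu : ¬ IsUnit (⟨algebraMap K F NL.ϖ, NL'.const_memR (hK NL.unif_mem) NL.unif_lt.le⟩ :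
        NL'.R) := by
      have hsp := NL'.const_mem_span (hK NL.unif_mem) NL.unif_lt
      intro hu
      exact NL'.not_isUnit_πR (isUnit_of_dvd_unit (Ideal.mem_span_singleton.mp hsp) hu)
    have := (hcc'.algebraMap_mem_ptIdeal_iff _).mpr ((IsLocalRing.mem_maximalIdeal _).mpr hnu)
    exact this
  have h2 : algebraMap NL.R (chartRing NL.R (r • u⁻¹)) NL.uR ∈ J := by
    rw [hJ, Ideal.mem_comap]
    have : algebraMap NL'.R (chartRing NL'.R (r • u⁻¹)) NL'.uR ∈ subPt NL' r :=
      Ideal.subset_span (by simp)
    exact this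
  have h3 : chartGen NL.R (r • u⁻¹) ∈ J := by
    rw [hJ, Ideal.mem_comap]
    have : chartGen NL'.R (r • u⁻¹) ∈ subPt NL' r := Ideal.subset_span (by simp)
    exact this
  have hle : subPt NL r ≤ J := by
    rw [subPt, ptIdeal, Ideal.span_le, Set.insert_subset_iff, Set.insert_subset_iff,
      Set.singleton_subset_iff]
    exact ⟨h1, h2, h3⟩
  have heq : subPt NL r = J := H.subPt_isMaximal.eq_of_le hJne hle
  intro x hx hx'
  apply hx
  rw [heq, hJ, Ideal.mem_comap]
  exact hx'

end Mono

/-! ### The family of levels of the sub-annulus -/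

section Family

variable {ι : Type*} (L : AnnulusLevels A T ι) [IsAlgClosed (ResidueField A)] {r : K}

/-- the hypotheses `SubHyp` hold at every level whose constant field contains the radius -/
theorem subHyp (h1 : A.valuation L.thick < A.valuation r) (h2 : A.valuation r < 1) (i : ι)
    (hi : r ∈ (L.level i).K') : SubHyp (L.level i) r where
  thick_ne := L.thick_ne
  thick_lt := L.thick_lt
  uv := L.uv
  r_mem := hi
  lt_r := h1
  r_lt := h2
  htr := htr_of_levels L h1 h2 i

/-- **The levels of the sub-annulus `{|ρ₀| < |u| < 1}`**: coordinates `(L.u, ρ₀ • L.u⁻¹)`,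
`ε₀ = 1`, thickness `ρ₀`; the levels are indexed by the levels of `L` whose constant field contains
`ρ₀`, with the same constant fields and uniformizers and the local rings `subRing ⊇ (L.level i).R`.
`hT` is the converse of `centred` for `L`, `hPL` the K-point existence lemma on the new rings. -/
noncomputable def subLevels (h1 : A.valuation L.thick < A.valuation r)
    (h2 : A.valuation r < 1)
    (hT : ∀ (i : ι) (P : Place K F), CentredAt A (L.level i).R P → P ∈ T)
    (hPL : ∀ (i : ι) (hi : r ∈ (L.level i).K') (p : Ideal (subHyp L h1 h2 i hi).subRing),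
      p.IsPrime → p ≠ ⊥ →
      (⟨algebraMap K F (L.level i).ϖ, (subHyp L h1 h2 i hi).unif_mem_subRing⟩ :
        (subHyp L h1 h2 i hi).subRing) ∉ p →
      ∃ P : Place K F, CentredAt A (subHyp L h1 h2 i hi).subRing P ∧
        ∀ y : (subHyp L h1 h2 i hi).subRing, evalAt P (y : F) = 0 ↔ y ∈ p) :
    AnnulusLevels A (subTube A T L.u r) {i : ι // r ∈ (L.level i).K'} where
  u := L.u
  v := r • L.u⁻¹
  ε₀ := 1
  thick := r
  thick_ne := by
    intro h0
    rw [h0, map_zero] at h1
    exact not_lt_zero h1
  thick_lt := h2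
  uv := by
    have hu0 : L.u ≠ 0 := L.u_ne_zero
    rw [Algebra.smul_def, Algebra.smul_def, mul_one, mul_comm, mul_assoc,
      inv_mul_cancel₀ hu0, mul_one]
  level := fun i => (subHyp L h1 h2 i.1 i.2).level (hT i.1) (hPL i.1 i.2)
  directed := by
    rintro ⟨i, hi⟩ ⟨j, hj⟩
    obtain ⟨l, hil, hjl, hKil, hKjl⟩ := L.directed i j
    refine ⟨⟨l, hKil hi⟩, ?_, ?_, hKil, hKjl⟩
    · exact subRing_mono (subHyp L h1 h2 i hi) (subHyp L h1 h2 l (hKil hi)) hil hKil
    · exact subRing_mono (subHyp L h1 h2 j hj) (subHyp L h1 h2 l (hKil hi)) hjl hKjl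
  frac := by
    intro y
    obtain ⟨l, ⟨a, b, hb, hab⟩, hl⟩ := L.exists_level_frac y r
    refine ⟨⟨l, hl⟩, ⟨(a : F), (subHyp L h1 h2 l hl).le_subRing a.2⟩,
      ⟨(b : F), (subHyp L h1 h2 l hl).le_subRing b.2⟩, ?_, hab⟩
    intro h0
    have h0' : (b : F) = 0 := congrArg Subtype.val h0
    exact hb (Subtype.ext h0')
  const := by
    intro c
    obtain ⟨i, hi⟩ := L.const c
    obtain ⟨l, -, hKil, hl⟩ := L.exists_level_const i r
    exact ⟨⟨l, hl⟩, hKil hi⟩
  finite_div := L.finite_div

section Rfl

variable (h1 : A.valuation L.thick < A.valuation r) (h2 : A.valuation r < 1)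
  (hT : ∀ (i : ι) (P : Place K F), CentredAt A (L.level i).R P → P ∈ T)
  (hPL : ∀ (i : ι) (hi : r ∈ (L.level i).K') (p : Ideal (subHyp L h1 h2 i hi).subRing),
    p.IsPrime → p ≠ ⊥ →
    (⟨algebraMap K F (L.level i).ϖ, (subHyp L h1 h2 i hi).unif_mem_subRing⟩ :
      (subHyp L h1 h2 i hi).subRing) ∉ p →
    ∃ P : Place K F, CentredAt A (subHyp L h1 h2 i hi).subRing P ∧
      ∀ y : (subHyp L h1 h2 i hi).subRing, evalAt P (y : F) = 0 ↔ y ∈ p)

@[simp] theorem subLevels_u : (subLevels L h1 h2 hT hPL).u = L.u := rfl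

@[simp] theorem subLevels_v : (subLevels L h1 h2 hT hPL).v = r • L.u⁻¹ := rfl

@[simp] theorem subLevels_ε₀ : (subLevels L h1 h2 hT hPL).ε₀ = 1 := rfl

@[simp] theorem subLevels_thick : (subLevels L h1 h2 hT hPL).thick = r := rfl

@[simp] theorem subLevels_level_R (i : {i : ι // r ∈ (L.level i).K'}) :
    ((subLevels L h1 h2 hT hPL).level i).R = (subHyp L h1 h2 i.1 i.2).subRing := rfl

@[simp] theorem subLevels_level_K' (i : {i : ι // r ∈ (L.level i).K'}) :
    ((subLevels L h1 h2 hT hPL).level i).K' = (L.level i.1).K' := rfl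

@[simp] theorem subLevels_level_ϖ (i : {i : ι // r ∈ (L.level i).K'}) :
    ((subLevels L h1 h2 hT hPL).level i).ϖ = (L.level i.1).ϖ := rfl

/-- **(X2)** the old level ring is contained in the new one -/
theorem le_subLevels_level_R (i : {i : ι // r ∈ (L.level i).K'}) :
    (L.level i.1).R ≤ ((subLevels L h1 h2 hT hPL).level i).R :=
  (subHyp L h1 h2 i.1 i.2).le_subRing

/-- **(X1)** the converse of `centred` for the levels of the sub-annulus -/
theorem mem_subTube_of_centredAt_subLevels (i : {i : ι // r ∈ (L.level i).K'})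
    {P : Place K F} (hc : CentredAt A ((subLevels L h1 h2 hT hPL).level i).R P) :
    P ∈ subTube A T L.u r :=
  (subHyp L h1 h2 i.1 i.2).mem_subTube_of_centredAt (hT i.1) hc

end Rfl

end Family

end Fermat.Agent.BR3.SubAnnChart
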