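/-
Program C (S36), node (I7-H), part 1 (helper5): the K-point existence lemma `hPL` on the local
rings of the sub-annulus, in the concrete frame `K = ℚ̄`, `F = F̄_N`.

`NL : S0.NodeLevel A T u v ε₀ thick` a level of an annulus of `F̄_N / ℚ̄`, `H : SubHyp NL ρ₀`.

* `exists_zpow_of_mem_K'` : the valuation of `A` is discrete on the constant field of a level, with
  uniformizer `NL.ϖ` (= `hdvr` of `S0.HorizProvider`; from `exists_eq_unif_pow_mul`);
* `exists_centredAt_subRing` : **the hypothesis `hPL` of `SubHyp.level` / `subLevels`**, from the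
  single concrete input `hRK : ∀ y ∈ NL.R, y ∈ FKs N NL.K'` (the level ring lies in the function
  field `K'·F_N` of its constant field);
* `subLevelsFrame` : `subLevels` with `hPL` discharged, `rfl`-lemmas, (X1), (X2);
* `hT_swap`, `hRK_swap` : the two inputs are stable under `AnnulusLevels.swap`, so the mirror half
  (the sub-annulus of `L.swap`) is fed by the same two facts: `subLevelsFrameSwap`.
-/
import Mathlib
import Fermat.Agent.BR3.SubAnnChart.Family
import Fermat.Agent.BR.S0.HorizProvider
import Fermat.Agent.BR.S0.AnnulusSwap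

set_option autoImplicit false
set_option linter.unusedSectionVars false
set_option linter.style.haveILetI false

namespace Fermat.Agent.BR3.SubAnnChart

open IsLocalRing AlgebraicCurve ModularCurve Fermat.Agent.Red Fermat.Agent.BR.Centre
  Fermat.Agent.BR.S0 Fermat.Agent.BR.S0.AnnulusN2Level Fermat.Agent.BR.Inst.LocSub
  Fermat.Agent.X0 Fermat.Agent.BR.Inst.FKCover

/-! ### Discreteness of the valuation on the constant field of a level -/

section Dvr

variable {K F : Type*} [Field K] [Field F] [Algebra K F]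
variable {A : ValuationSubring K} {T : Set (Place K F)}
variable {u v ε₀ : F} {thick : K}

/-- **the valuation of `A` is discrete on the constant field of a level**, with uniformizer the
uniformizer of the level -/
theorem exists_zpow_of_mem_K' (NL : NodeLevel A T u v ε₀ thick) {x : K} (hx : x ∈ NL.K')
    (hx0 : x ≠ 0) : ∃ n : ℤ, A.valuation x = A.valuation NL.ϖ ^ n := by
  have key : ∀ c : K, c ∈ NL.K' → c ≠ 0 → A.valuation c ≤ 1 →
      ∃ n : ℤ, A.valuation c = A.valuation NL.ϖ ^ n := by
    intro c hc hc0 hc1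
    rcases lt_or_eq_of_le hc1 with h | h
    · obtain ⟨n, -, η, -, hη1, hcn⟩ := exists_eq_unif_pow_mul NL hc0 h hc
      refine ⟨(n : ℤ), ?_⟩
      rw [hcn, map_mul, map_pow, hη1, mul_one, zpow_natCast]
    · exact ⟨0, by rw [h, zpow_zero]⟩
  rcases le_total (A.valuation x) 1 with h | h
  · exact key x hx hx0 h
  · have hinv : A.valuation x⁻¹ ≤ 1 := by
      rw [map_inv₀]
      exact inv_le_one_of_one_le₀ h
    obtain ⟨n, hn⟩ := key x⁻¹ (NL.K'.inv_mem hx) (inv_ne_zero hx0) hinv
    refine ⟨-n, ?_⟩
    rw [zpow_neg, ← hn, map_inv₀, inv_inv]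

end Dvr

/-! ### `hPL` in the concrete frame -/

section Frame

variable {N : ℕ} [NeZero N] {A : ValuationSubring Kb} {T : Set (Place Kb (Fb N))}
variable {u v ε₀ : Fb N} {thick r : Kb} {NL : NodeLevel A T u v ε₀ thick}

/-- **`hPL` for the local ring of the sub-annulus at one level**: every nonzero prime of `subRing`
not containing the uniformizer is the kernel of the evaluation at a place centred at `subRing`.
The only input is `hRK`: the level ring lies in the function field of its constant field. -/
theorem exists_centredAt_subRing (H : SubHyp NL r)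
    (hRK : ∀ y ∈ NL.R, y ∈ FKs N NL.K')
    (p : Ideal H.subRing) (hp : p.IsPrime) (hp0 : p ≠ ⊥)
    (hϖp : (⟨algebraMap Kb (Fb N) NL.ϖ, H.unif_mem_subRing⟩ : H.subRing) ∉ p) :
    ∃ P : Place Kb (Fb N), CentredAt A H.subRing P ∧
      ∀ y : H.subRing, evalAt P (y : Fb N) = 0 ↔ y ∈ p := by
  haveI := H.isLocalRing_subRing
  haveI := hp
  have hrE : algebraMap Kb (Fb N) r ∈ FKs N NL.K' :=
    Subfield.subset_closure (Or.inl ⟨r, H.r_mem, rfl⟩)
  obtain ⟨P, hP, -, hP2⟩ := HorizProvider.exists_centredAt_of_horizontal_subfield A NL.K'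
    H.subRing (H.subRing_le_of_le (FKs N NL.K') hRK hrE)
    (fun c hc hcA => H.le_subRing (NL.const_mem c hc hcA)) NL.ϖ NL.unif_mem NL.unif_ne
    NL.unif_lt (fun x hx hx0 => exists_zpow_of_mem_K' NL hx hx0) H.unif_mem_subRing
    (H.not_isUnit_coe NL.not_isUnit_πR) p hp0 hϖp
  exact ⟨P, hP, hP2⟩

end Frame

/-! ### The family -/

section Family

variable {N : ℕ} [NeZero N] {A : ValuationSubring Kb} [IsAlgClosed (ResidueField A)]
  {T : Set (Place Kb (Fb N))} {ι : Type*} (L : AnnulusLevels A T ι) {r : Kb}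

/-- **The levels of the sub-annulus `{|ρ₀| < |u| < 1}` in the concrete frame**: `subLevels` with
`hPL` discharged.  Inputs: `hT` (the converse of `centred` for `L`) and `hRK` (every level ring
lies in the function field of its constant field). -/
noncomputable def subLevelsFrame (h1 : A.valuation L.thick < A.valuation r)
    (h2 : A.valuation r < 1)
    (hT : ∀ (i : ι) (P : Place Kb (Fb N)), CentredAt A (L.level i).R P → P ∈ T)
    (hRK : ∀ (i : ι), ∀ y ∈ (L.level i).R, y ∈ FKs N (L.level i).K') :
    AnnulusLevels A (subTube A T L.u r) {i : ι // r ∈ (L.level i).K'} :=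
  subLevels L h1 h2 hT
    (fun i hi p hp hp0 hϖp => exists_centredAt_subRing (subHyp L h1 h2 i hi) (hRK i) p hp hp0 hϖp)

variable (h1 : A.valuation L.thick < A.valuation r) (h2 : A.valuation r < 1)
  (hT : ∀ (i : ι) (P : Place Kb (Fb N)), CentredAt A (L.level i).R P → P ∈ T)
  (hRK : ∀ (i : ι), ∀ y ∈ (L.level i).R, y ∈ FKs N (L.level i).K')

@[simp] theorem subLevelsFrame_u : (subLevelsFrame L h1 h2 hT hRK).u = L.u := rfl

@[simp] theorem subLevelsFrame_v : (subLevelsFrame L h1 h2 hT hRK).v = r • L.u⁻¹ := rfl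

@[simp] theorem subLevelsFrame_ε₀ : (subLevelsFrame L h1 h2 hT hRK).ε₀ = 1 := rfl

@[simp] theorem subLevelsFrame_thick : (subLevelsFrame L h1 h2 hT hRK).thick = r := rfl

theorem subLevelsFrame_level_R (i : {i : ι // r ∈ (L.level i).K'}) :
    ((subLevelsFrame L h1 h2 hT hRK).level i).R = (subHyp L h1 h2 i.1 i.2).subRing := rfl

theorem subLevelsFrame_level_K' (i : {i : ι // r ∈ (L.level i).K'}) :
    ((subLevelsFrame L h1 h2 hT hRK).level i).K' = (L.level i.1).K' := rfl

theorem subLevelsFrame_level_ϖ (i : {i : ι // r ∈ (L.level i).K'}) :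
    ((subLevelsFrame L h1 h2 hT hRK).level i).ϖ = (L.level i.1).ϖ := rfl

/-- (X2) the old level rings are contained in the new ones -/
theorem le_subLevelsFrame_level_R (i : {i : ι // r ∈ (L.level i).K'}) :
    (L.level i.1).R ≤ ((subLevelsFrame L h1 h2 hT hRK).level i).R :=
  (subHyp L h1 h2 i.1 i.2).le_subRing

/-- (X1) the converse of `centred` for the new levels -/
theorem mem_subTube_of_centredAt_subLevelsFrame (i : {i : ι // r ∈ (L.level i).K'})
    {P : Place Kb (Fb N)}
    (hP : CentredAt A ((subLevelsFrame L h1 h2 hT hRK).level i).R P) :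
    P ∈ subTube A T L.u r :=
  (subHyp L h1 h2 i.1 i.2).mem_subTube_of_centredAt (hT i.1) hP

/-- the new level rings again lie in the function fields of their constant fields -/
theorem hRK_subLevelsFrame (i : {i : ι // r ∈ (L.level i).K'}) :
    ∀ y ∈ ((subLevelsFrame L h1 h2 hT hRK).level i).R,
      y ∈ FKs N ((subLevelsFrame L h1 h2 hT hRK).level i).K' :=
  (subHyp L h1 h2 i.1 i.2).subRing_le_of_le (FKs N (L.level i.1).K') (hRK i.1)
    (Subfield.subset_closure (Or.inl ⟨r, i.2, rfl⟩))

end Family

/-! ### The mirror half: the same two inputs feed the sub-annulus of the swapped levels -/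

section Swap

variable {N : ℕ} [NeZero N] {A : ValuationSubring Kb} [IsAlgClosed (ResidueField A)]
  {T : Set (Place Kb (Fb N))} {ι : Type*} (L : AnnulusLevels A T ι) {r : Kb}

/-- **The levels of the sub-annulus `{|r| < |v| < 1}` of the swapped levels** (in terms of the
coordinate `u` of `L`: `{|thick| < |u| < |thick / r|}`), from the SAME inputs `hT`, `hRK` as for `L`
(the swap does not change the rings nor the constant fields). -/
noncomputable def subLevelsFrameSwap (h1 : A.valuation L.thick < A.valuation r)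
    (h2 : A.valuation r < 1)
    (hT : ∀ (i : ι) (P : Place Kb (Fb N)), CentredAt A (L.level i).R P → P ∈ T)
    (hRK : ∀ (i : ι), ∀ y ∈ (L.level i).R, y ∈ FKs N (L.level i).K') :
    AnnulusLevels A (subTube A T L.v r) {i : ι // r ∈ (L.level i).K'} :=
  subLevelsFrame L.swap h1 h2 hT hRK

variable (h1 : A.valuation L.thick < A.valuation r) (h2 : A.valuation r < 1)
  (hT : ∀ (i : ι) (P : Place Kb (Fb N)), CentredAt A (L.level i).R P → P ∈ T)
  (hRK : ∀ (i : ι), ∀ y ∈ (L.level i).R, y ∈ FKs N (L.level i).K')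

@[simp] theorem subLevelsFrameSwap_u : (subLevelsFrameSwap L h1 h2 hT hRK).u = L.v := rfl

@[simp] theorem subLevelsFrameSwap_v : (subLevelsFrameSwap L h1 h2 hT hRK).v = r • L.v⁻¹ := rfl

@[simp] theorem subLevelsFrameSwap_ε₀ : (subLevelsFrameSwap L h1 h2 hT hRK).ε₀ = 1 := rfl

@[simp] theorem subLevelsFrameSwap_thick : (subLevelsFrameSwap L h1 h2 hT hRK).thick = r := rfl

theorem subLevelsFrameSwap_level_K' (i : {i : ι // r ∈ (L.level i).K'}) :
    ((subLevelsFrameSwap L h1 h2 hT hRK).level i).K' = (L.level i.1).K' := rfl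

theorem subLevelsFrameSwap_level_ϖ (i : {i : ι // r ∈ (L.level i).K'}) :
    ((subLevelsFrameSwap L h1 h2 hT hRK).level i).ϖ = (L.level i.1).ϖ := rfl

/-- (X2) for the mirror half -/
theorem le_subLevelsFrameSwap_level_R (i : {i : ι // r ∈ (L.level i).K'}) :
    (L.level i.1).R ≤ ((subLevelsFrameSwap L h1 h2 hT hRK).level i).R :=
  le_subLevelsFrame_level_R L.swap h1 h2 hT hRK i

/-- (X1) for the mirror half -/
theorem mem_subTube_of_centredAt_subLevelsFrameSwap (i : {i : ι // r ∈ (L.level i).K'})
    {P : Place Kb (Fb N)}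
    (hP : CentredAt A ((subLevelsFrameSwap L h1 h2 hT hRK).level i).R P) :
    P ∈ subTube A T L.v r :=
  mem_subTube_of_centredAt_subLevelsFrame L.swap h1 h2 hT hRK i hP

end Swap

end Fermat.Agent.BR3.SubAnnChart
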