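/-
Program C (S36), node (I7-H), part 2 (helper5): the concrete discharge of the inputs `hT`, `hRK`
of `BR3/SubAnnChart/Horiz` at the levels of the crossings of `X₀(qM)` at `q` on main
(`AnnulusInstFinal.annulusLevels_modular_final` = the field `L` of
`AnnulusInstFinal.modularData_final`), the critical radii, and the resulting concrete levels of
the two halves of the annulus of a crossing.

* `KS_le_constField`, `loc_le_FKs` : the local ring of a crossing model of level `S` of the tower
  lies in the function field `K'·F_N` of its constant field `K' = constField ℚ̄ loc ⊇ K₀(S)`;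
* `hT_levelsOfExists`, `hRK_levelsOfExists` : the two inputs for `levelsOfExists` over the tower;
* `hT_modular_all`, `hRK_modular_all`, `hT_modular_final`, `hRK_modular_final` : the two inputs at
  the crossings of the modular curve;
* `exists_radius` : in an algebraically closed field, a radius `ρ` with `ρ ^ m = thick ^ n`
  (`0 < n < m`) — `|thick| < |ρ| < 1`; `(m, n) = (q + 1, 1)` is the critical radius along `a`,
  `(m, n) = (q + 1, q)` the critical radius along `b`;
* `outerLevels`, `innerLevelsRaw` : the concrete levels of the sub-annuli `{|ρ| < |u| < 1}` and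
  `{|r'| < |v| < 1}` (`r' = thick / ρ`: the inner half `{|thick| < |u| < |ρ|}`) of the tube of a
  crossing, with `rfl`-lemmas and the exports (X1), (X2).
-/
import Mathlib
import Fermat.Agent.BR3.SubAnnChart.Horiz
import Fermat.Agent.BR.Inst.AnnulusInstFinal

set_option autoImplicit false
set_option linter.unusedSectionVars false
set_option linter.style.haveILetI false
set_option synthInstance.maxHeartbeats 400000


/- S36 build-time patch: file-local shortcut instances. They only shorten instance search;
each is the instance that the search finds anyway (reducible, same terms after unfolding). -/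
noncomputable local instance (priority := 100000) Fermat.Agent.BR3.FastInst.instAlgFullC_SubAnnChart_Modular
    {k : Type*} [Field k] (N : ℕ) :
    Algebra k ↥(ModularCurve.modularFunctionFieldFullC k N) := inferInstance
noncomputable local instance (priority := 100000) Fermat.Agent.BR3.FastInst.instFieldFullC_SubAnnChart_Modular
    {k : Type*} [Field k] (N : ℕ) :
    Field ↥(ModularCurve.modularFunctionFieldFullC k N) := inferInstance
noncomputable local instance (priority := 100000) Fermat.Agent.BR3.FastInst.instAlgLaurent_SubAnnChart_Modular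
    {k : Type*} [Field k] : Algebra k (LaurentSeries k) := inferInstance

namespace Fermat.Agent.BR3.SubAnnChart

open IsLocalRing AlgebraicCurve ModularCurve Polynomial
open Fermat.Agent.Red Fermat.Agent.Val Fermat.Agent.X0 Fermat.Agent.BR.SS Fermat.Agent.BR.Refine
open Fermat.Agent.BR.Centre Fermat.Agent.BR.ConstRedTwo Fermat.Agent.BR.ModUnit
open Fermat.Agent.BR.S0 Fermat.Agent.BR.S0.RedModular Fermat.Agent.BR.S0.PointDict
open Fermat.Agent.BR.S0.Modular Fermat.Agent.BR.S0.RedHyp
open Fermat.Agent.BR.S0.CrossingFamilyAssembly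
open Fermat.Agent.BR.UnramCycloTower Fermat.Agent.BR.Inst.Levels
open Fermat.Agent.BR.Inst.NormalModel Fermat.Agent.BR.Inst.FKCover
open Fermat.Agent.BR.Inst.NodeInstFinal Fermat.Agent.BR.Inst.AnnulusInstFinal

/-! ### The local rings of the tower lie in the function fields of their constant fields -/

section Tower

variable {N : ℕ} [NeZero N] {A : ValuationSubring Kb} {q : ℕ}
  {base : Finset Kb → Subring (Fb N)} (hb : BaseFamily N A q base)
  {k' : Type*} [Field k'] {Ft₁ Ft₂ : Type*} [Field Ft₁] [Algebra k' Ft₁] [Field Ft₂]
  [Algebra k' Ft₂] {π' : A →+* k'} {O₁ O₂ : ValuationSubring (Fb N)} {res₁ : O₁ →+* Ft₁}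
  {res₂ : O₂ →+* Ft₂} {Q₁ : Place k' Ft₁} {Q₂ : Place k' Ft₂} {T : Set (Place Kb (Fb N))}

include hb in
/-- the coefficient field of level `S` consists of constants of the local ring of level `S` -/
theorem KS_le_constField (S : Finset Kb) {ϖ : Kb}
    (Mod : CrossingModel A π' O₁ O₂ res₁ res₂ Q₁ Q₂ T (CS N q base S) ϖ) :
    KS q S ≤ constField Kb Mod.loc := by
  have key : ∀ c : Kb, c ∈ KS q S → c ∈ A → c ∈ constField Kb Mod.loc := fun c hcK hcA =>
    mem_constField_of_mem (Mod.le_loc (const_mem_CS hb ⟨hcA, hcK⟩))
  intro c hc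
  rcases A.mem_or_inv_mem c with h | h
  · exact key c hc h
  · have h1 := key c⁻¹ ((KS q S).inv_mem hc) h
    have h2 := (constField Kb Mod.loc).inv_mem h1
    rwa [inv_inv] at h2

include hb in
/-- **`hRK` for the local ring of a crossing model of level `S`** -/
theorem loc_le_FKs (S : Finset Kb) {ϖ : Kb}
    (Mod : CrossingModel A π' O₁ O₂ res₁ res₂ Q₁ Q₂ T (CS N q base S) ϖ) :
    ∀ y ∈ Mod.loc, y ∈ FKs N (constField Kb Mod.loc) := by
  have hCS : ∀ a ∈ CS N q base S, a ∈ FKs N (constField Kb Mod.loc) := fun a ha =>
    FKs_mono (KS_le_constField hb S Mod) (CS_le_FS S ha)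
  intro y hy
  obtain ⟨a, b, hbp, hab⟩ := Mod.mem_loc_iff.mp hy
  have hb0 : (b : Fb N) ≠ 0 := by
    intro h0
    apply hbp
    have : b = 0 := Subtype.ext h0
    rw [this]
    exact Mod.point.zero_mem
  have e : y = (a : Fb N) / (b : Fb N) := by
    rw [eq_div_iff hb0]
    exact hab
  rw [e]
  exact (FKs N (constField Kb Mod.loc)).div_mem (hCS _ a.2) (hCS _ b.2)

variable {ϖ : Finset Kb → Kb} {i₀ : Finset Kb}

/-- **`hT` for the levels `levelsOfExists`**: a place centred at a level ring lies in the tube. -/
theorem hT_levelsOfExists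
    (h : ∃ (u v ε₀ : Fb N) (thick : Kb),
      CrossingFamily A π' O₁ O₂ res₁ res₂ Q₁ Q₂ T (CS N q base) ϖ i₀ u v ε₀ thick)
    (S : Finset Kb) (P : Place Kb (Fb N))
    (hc : CentredAt A ((levelsOfExists h).level S).R P) : P ∈ T :=
  ((Classical.choose_spec (Classical.choose_spec (Classical.choose_spec
    (Classical.choose_spec h)))).model S).mem_tube_of_centredAt hc

include hb in
/-- **`hRK` for the levels `levelsOfExists`** over the tower. -/
theorem hRK_levelsOfExists
    (h : ∃ (u v ε₀ : Fb N) (thick : Kb),
      CrossingFamily A π' O₁ O₂ res₁ res₂ Q₁ Q₂ T (CS N q base) ϖ i₀ u v ε₀ thick)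
    (S : Finset Kb) :
    ∀ y ∈ ((levelsOfExists h).level S).R, y ∈ FKs N ((levelsOfExists h).level S).K' :=
  loc_le_FKs hb S ((Classical.choose_spec (Classical.choose_spec (Classical.choose_spec
    (Classical.choose_spec h)))).model S)

end Tower

/-! ### The critical radii -/

section Radius

variable {K : Type*} [Field K] [IsAlgClosed K] (A : ValuationSubring K)

/-- **A radius `ρ` with `ρ ^ m = thick ^ n`**, `0 < n < m`: then `|thick| < |ρ| < 1`. -/
theorem exists_radius {thick : K} (h0 : thick ≠ 0) (h1 : A.valuation thick < 1) {m n : ℕ}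
    (hn : 0 < n) (hnm : n < m) :
    ∃ ρ : K, ρ ^ m = thick ^ n ∧ A.valuation thick < A.valuation ρ ∧ A.valuation ρ < 1 := by
  have hm : 0 < m := lt_trans hn hnm
  obtain ⟨ρ, hρ⟩ := IsAlgClosed.exists_pow_nat_eq (thick ^ n) hm
  have hv : A.valuation ρ ^ m = A.valuation thick ^ n := by
    rw [← map_pow, ← map_pow, hρ]
  have ht0 : 0 < A.valuation thick := zero_lt_iff.mpr ((_root_.map_ne_zero _).mpr h0)
  refine ⟨ρ, hρ, ?_, ?_⟩
  · by_contra hle
    rw [not_lt] at hle
    have h2 : A.valuation ρ ^ m ≤ A.valuation thick ^ m := pow_le_pow_left₀ zero_le hle m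
    have h3 : A.valuation thick ^ m < A.valuation thick ^ n :=
      pow_lt_pow_right_of_lt_one₀ ht0 h1 hnm
    rw [hv] at h2
    exact absurd h2 (not_le.mpr h3)
  · by_contra hle
    rw [not_lt] at hle
    have h2 : (1 : A.ValueGroup) ≤ A.valuation ρ ^ m := one_le_pow₀ hle
    have h3 : A.valuation thick ^ n < 1 := pow_lt_one₀ zero_le h1 hn.ne'
    rw [hv] at h2
    exact absurd h2 (not_le.mpr h3)

end Radius

/-! ### The crossings of the modular curve -/

section Modular

variable {M q : ℕ} [NeZero M] [hq : Fact q.Prime]
variable (B : ValuationSubring Kb) (hB : B.LiesOverPrime q) (hqM : ¬ q ∣ M)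

local notation "kB" => IsLocalRing.ResidueField B
local notation "FtM" => modularFunctionFieldFullC (IsLocalRing.ResidueField B) M

variable {x : Fb (M * q)} (H : AtlasHyp (chartDataModular B hB hqM) x)

set_option maxHeartbeats 4000000 in
/-- **`hT` at a crossing of the modular curve**, any atlas hypotheses and charts. -/
theorem hT_modular_all [IsAlgClosed (ResidueField B)]
    (hne : Nonempty (Crossing (chartDataModular B hB hqM)))
    (smooth₀ : ∀ Q : Place kB FtM, (∀ e, Q ≠ z₁ (chartDataModular B hB hqM) e) →
      SmoothChart B (compW B hB hqM 0).O (compW B hB hqM 0).res Q {P | H.r P = ⟨0, Q⟩})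
    (smooth₁ : ∀ Q : Place kB FtM, (∀ e, Q ≠ z₂ (chartDataModular B hB hqM) e) →
      SmoothChart B (compW B hB hqM 1).O (compW B hB hqM 1).res Q {P | H.r P = ⟨1, Q⟩})
    (chart : ∀ e, NodeChart B (compW B hB hqM 0).O (compW B hB hqM 1).O (compW B hB hqM 0).res
      (compW B hB hqM 1).res (z₁ (chartDataModular B hB hqM) e)
      (z₂ (chartDataModular B hB hqM) e)
      {P | H.r P = ⟨0, z₁ (chartDataModular B hB hqM) e⟩})
    (e : Crossing (chartDataModular B hB hqM)) (S : Finset Kb) (P : Place Kb (Fb (M * q)))
    (hc : CentredAt B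
      ((annulusLevels_modular_all B hB hqM H hne smooth₀ smooth₁ chart e).level S).R P) :
    P ∈ tube (modularInput H hne smooth₀ smooth₁ chart).toSetup e :=
  (crossingModel_modular_final B hB hqM H S e).mem_tube_of_centredAt hc

set_option maxHeartbeats 4000000 in
/-- **`hRK` at a crossing of the modular curve**, any atlas hypotheses and charts. -/
theorem hRK_modular_all [IsAlgClosed (ResidueField B)]
    (hne : Nonempty (Crossing (chartDataModular B hB hqM)))
    (smooth₀ : ∀ Q : Place kB FtM, (∀ e, Q ≠ z₁ (chartDataModular B hB hqM) e) →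
      SmoothChart B (compW B hB hqM 0).O (compW B hB hqM 0).res Q {P | H.r P = ⟨0, Q⟩})
    (smooth₁ : ∀ Q : Place kB FtM, (∀ e, Q ≠ z₂ (chartDataModular B hB hqM) e) →
      SmoothChart B (compW B hB hqM 1).O (compW B hB hqM 1).res Q {P | H.r P = ⟨1, Q⟩})
    (chart : ∀ e, NodeChart B (compW B hB hqM 0).O (compW B hB hqM 1).O (compW B hB hqM 0).res
      (compW B hB hqM 1).res (z₁ (chartDataModular B hB hqM) e)
      (z₂ (chartDataModular B hB hqM) e)
      {P | H.r P = ⟨0, z₁ (chartDataModular B hB hqM) e⟩})
    (e : Crossing (chartDataModular B hB hqM)) (S : Finset Kb) :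
    ∀ y ∈ ((annulusLevels_modular_all B hB hqM H hne smooth₀ smooth₁ chart e).level S).R,
      y ∈ FKs (M * q)
        ((annulusLevels_modular_all B hB hqM H hne smooth₀ smooth₁ chart e).level S).K' :=
  loc_le_FKs (baseFamily_fin (M * q) B hq.out hB) S (crossingModel_modular_final B hB hqM H S e)

end Modular

/-! ### The same over `Final.setupFinal`: the field `L` of `modularData_final` -/

section Final

open Fermat.Agent.BR.Final

variable {M q : ℕ} [NeZero M] [hq : Fact q.Prime]
variable (B : ValuationSubring Kb) (hB : B.LiesOverPrime q) (hqM : ¬ q ∣ M)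
variable [IsAlgClosed (ResidueField B)]
variable (hne : Nonempty (Crossing (chartDataModular B hB hqM)))
  (e : Crossing (chartDataModular B hB hqM))

/-- the levels of the tube of the crossing `e` on main: the field `L` of `modularData_final` -/
theorem modularData_final_L :
    (modularData_final B hB hqM).L hne e = annulusLevels_modular_final B hB hqM hne e := rfl

set_option maxHeartbeats 4000000 in
/-- **`hT` for the levels of main at the crossing `e`.** -/
theorem hT_modular_final (S : Finset Kb) (P : Place Kb (Fb (M * q)))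
    (hc : CentredAt B ((annulusLevels_modular_final B hB hqM hne e).level S).R P) :
    P ∈ tube (setupFinal B hB hqM hne) e :=
  hT_modular_all B hB hqM _ hne _ _ _ e S P hc

set_option maxHeartbeats 4000000 in
/-- **`hRK` for the levels of main at the crossing `e`.** -/
theorem hRK_modular_final (S : Finset Kb) :
    ∀ y ∈ ((annulusLevels_modular_final B hB hqM hne e).level S).R,
      y ∈ FKs (M * q) ((annulusLevels_modular_final B hB hqM hne e).level S).K' :=
  hRK_modular_all B hB hqM _ hne _ _ _ e S

set_option maxHeartbeats 4000000 in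
/-- the constant field of the level `S` contains the coefficient field `K₀(S)`, in particular the
elements of `S`: the index type `{S // ρ ∈ K' S}` of the sub-annulus levels contains every `S ∋ ρ` -/
theorem KS_le_K'_modular_final (S : Finset Kb) :
    KS q S ≤ ((annulusLevels_modular_final B hB hqM hne e).level S).K' :=
  KS_le_constField (baseFamily_fin (M * q) B hq.out hB) S
    (crossingModel_modular_final B hB hqM
      (Fermat.Agent.BR.S0.GeomFinal.atlasHyp_modular_final B hB hqM) S e)

theorem mem_K'_modular_final_of_mem {S : Finset Kb} {ρ : Kb} (hρ : ρ ∈ S) :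
    ρ ∈ ((annulusLevels_modular_final B hB hqM hne e).level S).K' :=
  KS_le_K'_modular_final B hB hqM hne e S (subset_KS q S (Finset.mem_coe.mpr hρ))

/-- **The levels of the outer half `{|ρ| < |u| < 1}` of the annulus of the crossing `e`**:
coordinates `(u, ρ • u⁻¹)`, `ε₀ = 1`, thickness `ρ`. -/
noncomputable def outerLevels {ρ : Kb}
    (h1 : B.valuation (annulusLevels_modular_final B hB hqM hne e).thick < B.valuation ρ)
    (h2 : B.valuation ρ < 1) :
    AnnulusLevels B
      (subTube B (tube (setupFinal B hB hqM hne) e) (annulusLevels_modular_final B hB hqM hne e).u ρ)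
      {S : Finset Kb // ρ ∈ ((annulusLevels_modular_final B hB hqM hne e).level S).K'} :=
  subLevelsFrame (annulusLevels_modular_final B hB hqM hne e) h1 h2
    (hT_modular_final B hB hqM hne e) (hRK_modular_final B hB hqM hne e)

/-- **The levels of the sub-annulus `{|r| < |v| < 1}` of the annulus of the crossing `e`** in the
second coordinate `v` (for `r = thick / ρ` this is the inner half `{|thick| < |u| < |ρ|}`):
coordinates `(v, r • v⁻¹)`, `ε₀ = 1`, thickness `r`. -/
noncomputable def innerLevelsRaw {r : Kb}
    (h1 : B.valuation (annulusLevels_modular_final B hB hqM hne e).thick < B.valuation r)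
    (h2 : B.valuation r < 1) :
    AnnulusLevels B
      (subTube B (tube (setupFinal B hB hqM hne) e) (annulusLevels_modular_final B hB hqM hne e).v r)
      {S : Finset Kb // r ∈ ((annulusLevels_modular_final B hB hqM hne e).level S).K'} :=
  subLevelsFrameSwap (annulusLevels_modular_final B hB hqM hne e) h1 h2
    (hT_modular_final B hB hqM hne e) (hRK_modular_final B hB hqM hne e)

section Rfl

variable {ρ : Kb}
  (h1 : B.valuation (annulusLevels_modular_final B hB hqM hne e).thick < B.valuation ρ)
  (h2 : B.valuation ρ < 1)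

@[simp] theorem outerLevels_u : (outerLevels B hB hqM hne e h1 h2).u =
    (annulusLevels_modular_final B hB hqM hne e).u := rfl

@[simp] theorem outerLevels_v : (outerLevels B hB hqM hne e h1 h2).v =
    ρ • (annulusLevels_modular_final B hB hqM hne e).u⁻¹ := rfl

@[simp] theorem outerLevels_ε₀ : (outerLevels B hB hqM hne e h1 h2).ε₀ = 1 := rfl

@[simp] theorem outerLevels_thick : (outerLevels B hB hqM hne e h1 h2).thick = ρ := rfl

@[simp] theorem innerLevelsRaw_u : (innerLevelsRaw B hB hqM hne e h1 h2).u =
    (annulusLevels_modular_final B hB hqM hne e).v := rfl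

@[simp] theorem innerLevelsRaw_v : (innerLevelsRaw B hB hqM hne e h1 h2).v =
    ρ • (annulusLevels_modular_final B hB hqM hne e).v⁻¹ := rfl

@[simp] theorem innerLevelsRaw_ε₀ : (innerLevelsRaw B hB hqM hne e h1 h2).ε₀ = 1 := rfl

@[simp] theorem innerLevelsRaw_thick : (innerLevelsRaw B hB hqM hne e h1 h2).thick = ρ := rfl

/-- (X2) the level rings of main are contained in those of the outer half -/
theorem le_outerLevels_level_R
    (S : {S : Finset Kb // ρ ∈ ((annulusLevels_modular_final B hB hqM hne e).level S).K'}) :
    ((annulusLevels_modular_final B hB hqM hne e).level S.1).R ≤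
      ((outerLevels B hB hqM hne e h1 h2).level S).R :=
  le_subLevelsFrame_level_R _ h1 h2 _ _ S

/-- (X1) a place centred at a level ring of the outer half lies in its tube -/
theorem mem_subTube_of_centredAt_outerLevels
    (S : {S : Finset Kb // ρ ∈ ((annulusLevels_modular_final B hB hqM hne e).level S).K'})
    {P : Place Kb (Fb (M * q))}
    (hP : CentredAt B ((outerLevels B hB hqM hne e h1 h2).level S).R P) :
    P ∈ subTube B (tube (setupFinal B hB hqM hne) e)
      (annulusLevels_modular_final B hB hqM hne e).u ρ :=
  mem_subTube_of_centredAt_subLevelsFrame _ h1 h2 _ _ S hP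

/-- (X2) for the second half -/
theorem le_innerLevelsRaw_level_R
    (S : {S : Finset Kb // ρ ∈ ((annulusLevels_modular_final B hB hqM hne e).level S).K'}) :
    ((annulusLevels_modular_final B hB hqM hne e).level S.1).R ≤
      ((innerLevelsRaw B hB hqM hne e h1 h2).level S).R :=
  le_subLevelsFrameSwap_level_R _ h1 h2 _ _ S

/-- (X1) for the second half -/
theorem mem_subTube_of_centredAt_innerLevelsRaw
    (S : {S : Finset Kb // ρ ∈ ((annulusLevels_modular_final B hB hqM hne e).level S).K'})
    {P : Place Kb (Fb (M * q))}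
    (hP : CentredAt B ((innerLevelsRaw B hB hqM hne e h1 h2).level S).R P) :
    P ∈ subTube B (tube (setupFinal B hB hqM hne) e)
      (annulusLevels_modular_final B hB hqM hne e).v ρ :=
  mem_subTube_of_centredAt_subLevelsFrameSwap _ h1 h2 _ _ S hP

end Rfl

/-- **The critical radius along `a`**: `ρ ^ (q + 1) = thick e`. -/
theorem exists_radius_a :
    ∃ ρ : Kb, ρ ^ (q + 1) = (annulusLevels_modular_final B hB hqM hne e).thick ∧
      B.valuation (annulusLevels_modular_final B hB hqM hne e).thick < B.valuation ρ ∧
      B.valuation ρ < 1 := by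
  obtain ⟨ρ, h, h1, h2⟩ := exists_radius B (annulusLevels_modular_final B hB hqM hne e).thick_ne
    (annulusLevels_modular_final B hB hqM hne e).thick_lt (m := q + 1) (n := 1) Nat.one_pos
    (Nat.lt_add_of_pos_left hq.out.pos)
  exact ⟨ρ, by rw [h, pow_one], h1, h2⟩

/-- **The critical radius along `b`**: `ρ ^ (q + 1) = (thick e) ^ q`. -/
theorem exists_radius_b :
    ∃ ρ : Kb, ρ ^ (q + 1) = (annulusLevels_modular_final B hB hqM hne e).thick ^ q ∧
      B.valuation (annulusLevels_modular_final B hB hqM hne e).thick < B.valuation ρ ∧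
      B.valuation ρ < 1 :=
  exists_radius B (annulusLevels_modular_final B hB hqM hne e).thick_ne
    (annulusLevels_modular_final B hB hqM hne e).thick_lt (m := q + 1) (n := q) hq.out.pos
    (Nat.lt_succ_self q)

end Final

end Fermat.Agent.BR3.SubAnnChart
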