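/-
Program C (S36), node (I7-H), part 3 (helper5): the level data, the branch data and the annulus
charts of ALL nodes of the one-level refinement `S'ref = SRef.sref I a₀ hadm`, in the concrete
frame `K = ℚ̄`, `F = F̄_N`, and their instance at the modular curve (`S'ref_a`, `S'ref_b`).

Generic frame (`S₀` a semistable setup of `F̄_N / ℚ̄` with annulus charts `I`, gauges `a₀`, levels
`L e` of the tube of every node with branch data `X e`, the chart of `e` being the chart of `L e`):
inputs `hT` (converse of `centred`) and `hRK` (level ring inside the function field of its constant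
field) — the hypotheses `hPL` of helper16's `outerLevelsRef` / `innerLevelsRef` are discharged by
`exists_centredAt_subRing`:

* `hPL_outer`, `hPL_inner`; `idxRef`, `levelsRef : ∀ n, AnnulusLevels A (tube (sref I a₀ hadm) n) _`,
  `branchRef : ∀ n, BranchDataN (sref I a₀ hadm) n (levelsRef … n)` (separation: helper12's
  `sepComp_sref`), `circleInputsNRef : CircleInputsN (sref I a₀ hadm)` (`separated_sref`).

Modular curve (`Dt := AnnulusInstFinal.modularData_final B hB hqM`, `S' := SetupOfData.setup Dt`):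

* `hT_F`, `hRK_F`; `outerLevelsM`, `innerLevelsM`, `branchDataN_outerM`, `branchDataN_innerM`;
* `circleInputsNM a₀ hadm : CircleInputsN (srefM Dt a₀ hadm)`, hence for `srefA`, `srefB`.
-/
import Mathlib
import Fermat.Agent.BR3.SubAnnChart.Modular
import Fermat.Agent.BR3.SubAnnPlaces.Branch
import Fermat.Agent.BR3.SRef.Modular
import Fermat.Agent.BR3.SepNCover

set_option autoImplicit false
set_option linter.unusedSectionVars false
set_option linter.style.haveILetI false
set_option synthInstance.maxHeartbeats 400000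

noncomputable section

/- S36 build-time patch: file-local shortcut instances. They only shorten instance search;
each is the instance that the search finds anyway (reducible, same terms after unfolding). -/
local instance (priority := 100000) Fermat.Agent.BR3.FastInst.instAlgFullC_SubAnnChart_ModularRef
    {k : Type*} [Field k] (N : ℕ) :
    Algebra k ↥(ModularCurve.modularFunctionFieldFullC k N) := inferInstance
local instance (priority := 100000) Fermat.Agent.BR3.FastInst.instFieldFullC_SubAnnChart_ModularRef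
    {k : Type*} [Field k] (N : ℕ) :
    Field ↥(ModularCurve.modularFunctionFieldFullC k N) := inferInstance
local instance (priority := 100000) Fermat.Agent.BR3.FastInst.instAlgLaurent_SubAnnChart_ModularRef
    {k : Type*} [Field k] : Algebra k (LaurentSeries k) := inferInstance


namespace Fermat.Agent.BR3.SubAnnChart

open IsLocalRing AlgebraicCurve ModularCurve
open Fermat.Agent.Red Fermat.Agent.X0 Fermat.Agent.BR.SS Fermat.Agent.BR.Refine
open Fermat.Agent.BR.Centre Fermat.Agent.BR.S0 Fermat.Agent.BR.Circle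
open Fermat.Agent.BR.Inst.FKCover
open Fermat.Agent.BR3.CircleN Fermat.Agent.BR3.SRef Fermat.Agent.BR3.SubAnnPlaces
open Fermat.Agent.BR3.SepNCover

/-! ### The generic frame -/

section Frame

variable {N : ℕ} [NeZero N] {A : ValuationSubring Kb} [IsAlgClosed (ResidueField A)]
  {ι₀ : Type} {Ft₀ : ι₀ → Type} [∀ v, Field (Ft₀ v)] [∀ v, Algebra (ResidueField A) (Ft₀ v)]
  {ν₀ : Type}
  {S₀ : SemistableSetup (F := Fb N) A (residue A) ι₀ Ft₀ ν₀}
  (I : CircleInputsN S₀) (a₀ : ν₀ → Kb) (hadm : ∀ e, I.adm e (a₀ e))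
  {ι : ν₀ → Type} (L : ∀ e, AnnulusLevels A (tube S₀ e) (ι e))
  (hu : ∀ e, (I.ch e).u = (L e).u) (hth : ∀ e, (I.ch e).thick = (L e).thick)
  (hT : ∀ e (i : ι e) (P : Place Kb (Fb N)), CentredAt A ((L e).level i).R P → P ∈ tube S₀ e)
  (hRK : ∀ e (i : ι e), ∀ y ∈ ((L e).level i).R, y ∈ FKs N ((L e).level i).K')

include hRK in
/-- `hPL` of `outerLevelsRef` / `branchDataN_outer` in the concrete frame -/
theorem hPL_outer (e : ν₀) (i : ι e) (hi : a₀ e ∈ ((L e).level i).K')
    (p : Ideal (subHyp (L e) (gauge_h1 I a₀ hadm e (L e) (hth e)) (gauge_h2 I a₀ hadm e) i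
      hi).subRing)
    (hp : p.IsPrime) (hp0 : p ≠ ⊥)
    (hϖ : (⟨algebraMap Kb (Fb N) ((L e).level i).ϖ,
        (subHyp (L e) (gauge_h1 I a₀ hadm e (L e) (hth e)) (gauge_h2 I a₀ hadm e) i
          hi).unif_mem_subRing⟩ :
        (subHyp (L e) (gauge_h1 I a₀ hadm e (L e) (hth e)) (gauge_h2 I a₀ hadm e) i
          hi).subRing) ∉ p) :
    ∃ P : Place Kb (Fb N),
      CentredAt A (subHyp (L e) (gauge_h1 I a₀ hadm e (L e) (hth e)) (gauge_h2 I a₀ hadm e) i
        hi).subRing P ∧
      ∀ y : (subHyp (L e) (gauge_h1 I a₀ hadm e (L e) (hth e)) (gauge_h2 I a₀ hadm e) i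
        hi).subRing, evalAt P (y : Fb N) = 0 ↔ y ∈ p :=
  exists_centredAt_subRing _ (hRK e i) p hp hp0 hϖ

include hRK in
/-- `hPL` of `innerLevelsRef` / `branchDataN_inner` in the concrete frame -/
theorem hPL_inner (e : ν₀) (i : ι e) (hi : a₀ e ∈ ((L e).level i).K')
    (p : Ideal (innerRing (L e) (a₀ e) (gauge_h1 I a₀ hadm e (L e) (hth e))
      (gauge_h2 I a₀ hadm e) hi))
    (hp : p.IsPrime) (hp0 : p ≠ ⊥)
    (hϖ : (⟨algebraMap Kb (Fb N) ((L e).level i).ϖ,
        unif_mem_innerRing (L e) (a₀ e) (gauge_h1 I a₀ hadm e (L e) (hth e))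
          (gauge_h2 I a₀ hadm e) hi⟩ :
        innerRing (L e) (a₀ e) (gauge_h1 I a₀ hadm e (L e) (hth e))
          (gauge_h2 I a₀ hadm e) hi) ∉ p) :
    ∃ P : Place Kb (Fb N),
      CentredAt A (innerRing (L e) (a₀ e) (gauge_h1 I a₀ hadm e (L e) (hth e))
        (gauge_h2 I a₀ hadm e) hi) P ∧
      ∀ y : innerRing (L e) (a₀ e) (gauge_h1 I a₀ hadm e (L e) (hth e))
        (gauge_h2 I a₀ hadm e) hi, evalAt P (y : Fb N) = 0 ↔ y ∈ p :=
  exists_centredAt_subRing
    (innerHyp (L e) (a₀ e) (gauge_h1 I a₀ hadm e (L e) (hth e)) (gauge_h2 I a₀ hadm e) hi)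
    (hRK e i) p hp hp0 hϖ

/-- the index types of the levels of the nodes of `S'ref` -/
def idxRef : ν₀ ⊕ (oneLevel I a₀ hadm).X → Type
  | Sum.inl e => {i : ι e // a₀ e ∈ ((L e).level i).K'}
  | Sum.inr x => {i : ι x.1 // a₀ x.1 ∈ ((L x.1).level i).K'}

/-- **The levels of the tube of every node of `S'ref`** (outer nodes: the outer sub-annulus,
coordinates `(u, a₀ • u⁻¹)`; inner nodes: the inner sub-annulus, coordinates `(a₀⁻¹ • u, v)`). -/
def levelsRef : ∀ n : ν₀ ⊕ (oneLevel I a₀ hadm).X,
    AnnulusLevels A (tube (sref I a₀ hadm) n) (idxRef I a₀ hadm L n)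
  | Sum.inl e => outerLevelsRef I a₀ hadm e (L e) (hu e) (hth e) (hT e)
      (hPL_outer I a₀ hadm L hth hRK e)
  | Sum.inr ⟨e, ⟨0, _⟩⟩ => innerLevelsRef I a₀ hadm e (L e) (hu e) (hth e) (hT e)
      (hPL_inner I a₀ hadm L hth hRK e)
  | Sum.inr ⟨_, ⟨_ + 1, h⟩⟩ => absurd h (by simp)

theorem levelsRef_outer (e : ν₀) :
    levelsRef I a₀ hadm L hu hth hT hRK (outer I a₀ hadm e) =
      outerLevelsRef I a₀ hadm e (L e) (hu e) (hth e) (hT e) (hPL_outer I a₀ hadm L hth hRK e) :=
  rfl

theorem levelsRef_inner (e : ν₀) :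
    levelsRef I a₀ hadm L hu hth hT hRK (inner I a₀ hadm e) =
      innerLevelsRef I a₀ hadm e (L e) (hu e) (hth e) (hT e) (hPL_inner I a₀ hadm L hth hRK e) :=
  rfl

variable (X : ∀ e, BranchDataN S₀ e (L e))

include X in
/-- **The branch data of every node of `S'ref`.** -/
theorem branchRef : ∀ n : ν₀ ⊕ (oneLevel I a₀ hadm).X,
    BranchDataN (sref I a₀ hadm) n (levelsRef I a₀ hadm L hu hth hT hRK n)
  | Sum.inl e => branchDataN_outer I a₀ hadm e (L e) (hu e) (hth e) (hT e) (X e)
      (hPL_outer I a₀ hadm L hth hRK e)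
      (fun w h1 h2 => sepComp_sref I a₀ hadm (outer I a₀ hadm e) w h1 h2)
  | Sum.inr ⟨e, ⟨0, _⟩⟩ => branchDataN_inner I a₀ hadm e (L e) (hu e) (hth e) (hT e) (X e)
      (hPL_inner I a₀ hadm L hth hRK e)
      (fun w h1 h2 => sepComp_sref I a₀ hadm (inner I a₀ hadm e) w h1 h2)
  | Sum.inr ⟨_, ⟨_ + 1, h⟩⟩ => absurd h (by simp)

/-- **The annulus charts of `S'ref`**: `CircleInputsN` of the one-level refinement. -/
def circleInputsNRef (hA : IsRankOne A) : CircleInputsN (sref I a₀ hadm) :=
  circleInputsNOfLevels hA (levelsRef I a₀ hadm L hu hth hT hRK)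
    (branchRef I a₀ hadm L hu hth hT hRK X) (separated_sref I a₀ hadm)

theorem circleInputsNRef_u_outer (hA : IsRankOne A) (e : ν₀) :
    ((circleInputsNRef I a₀ hadm L hu hth hT hRK X hA).ch (outer I a₀ hadm e)).u = (L e).u := rfl

theorem circleInputsNRef_u_inner (hA : IsRankOne A) (e : ν₀) :
    ((circleInputsNRef I a₀ hadm L hu hth hT hRK X hA).ch (inner I a₀ hadm e)).u =
      (a₀ e)⁻¹ • (L e).u := rfl

end Frame

/-! ### The modular curve -/

section Modular

open Fermat.Agent.BR.S0.PointDict Fermat.Agent.BR.S0.RedModular Fermat.Agent.BR.Final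
open Fermat.Agent.BR2.SetupOfData Fermat.Agent.BR3.SRef.Modular
open Fermat.Agent.BR.Inst.AnnulusInstFinal

variable {M q : ℕ} [NeZero M] [hq : Fact q.Prime]
variable {B : ValuationSubring Kb} {hB : B.LiesOverPrime q} {hqM : ¬ q ∣ M}
variable [IsAlgClosed (ResidueField B)]

/-- (shortcut instance, as in `BR3/SRef/Modular`: the search through the generic instances costs
seconds per declaration) -/
local instance (priority := 100000) instAlgebraFtMShortcutRef :
    Algebra (IsLocalRing.ResidueField B)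
      (modularFunctionFieldFullC (IsLocalRing.ResidueField B) M) :=
  inferInstance

/-! #### Any named inputs `Dt` whose levels satisfy `hT`, `hRK` -/

section Abstract

variable (Dt : ModularData M q B hB hqM)

/-- the levels of the tube of the crossing `e` -/
abbrev LD (e : Crossing (chartDataModular B hB hqM)) :
    AnnulusLevels B (tube (setup Dt) e) (Dt.ι e) :=
  Dt.L (nonempty_crossing Dt) e

/-- the branch data of the levels, in the `n`-component form -/
theorem branchDataN_LD (e : Crossing (chartDataModular B hB hqM)) :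
    BranchDataN (setup Dt) e (LD Dt e) :=
  BranchDataN.ofBranchData (Dt.X (nonempty_crossing Dt) e)

variable (a₀ : Crossing (chartDataModular B hB hqM) → Kb)
  (hadm : ∀ e, (inputs Dt).adm e (a₀ e))
  (hT : ∀ e (i : Dt.ι e) (P : Place Kb (Fb (M * q))),
    CentredAt B ((LD Dt e).level i).R P → P ∈ tube (setup Dt) e)
  (hRK : ∀ e (i : Dt.ι e), ∀ y ∈ ((LD Dt e).level i).R,
    y ∈ FKs (M * q) ((LD Dt e).level i).K')

set_option maxHeartbeats 4000000 in
/-- **The levels of every node of `S'ref`.** -/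
def levelsD : ∀ n, AnnulusLevels B (tube (srefM Dt a₀ hadm) n)
    (idxRef (inputs Dt) a₀ hadm (LD Dt) n) :=
  levelsRef (inputs Dt) a₀ hadm (LD Dt) (fun _ => rfl) (fun _ => rfl) hT hRK

set_option maxHeartbeats 4000000 in
/-- **The branch data of every node of `S'ref`.** -/
theorem branchD : ∀ n, BranchDataN (srefM Dt a₀ hadm) n (levelsD Dt a₀ hadm hT hRK n) :=
  branchRef (inputs Dt) a₀ hadm (LD Dt) (fun _ => rfl) (fun _ => rfl) hT hRK (branchDataN_LD Dt)

set_option maxHeartbeats 4000000 in
/-- **The annulus charts of `S'ref`**: `CircleInputsN (srefM Dt a₀ hadm)`. -/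
def circleInputsND : CircleInputsN (srefM Dt a₀ hadm) :=
  circleInputsNRef (inputs Dt) a₀ hadm (LD Dt) (fun _ => rfl) (fun _ => rfl) hT hRK
    (branchDataN_LD Dt) (isRankOne Dt)

set_option maxHeartbeats 4000000 in
/-- the levels of the outer node of the crossing `e` -/
theorem levelsD_outer (e : Crossing (chartDataModular B hB hqM)) :
    levelsD Dt a₀ hadm hT hRK (outer (inputs Dt) a₀ hadm e) =
      outerLevelsRef (inputs Dt) a₀ hadm e (LD Dt e) rfl rfl (hT e)
        (hPL_outer (inputs Dt) a₀ hadm (LD Dt) (fun _ => rfl) hRK e) := rfl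

set_option maxHeartbeats 4000000 in
/-- the levels of the inner node of the crossing `e` -/
theorem levelsD_inner (e : Crossing (chartDataModular B hB hqM)) :
    levelsD Dt a₀ hadm hT hRK (inner (inputs Dt) a₀ hadm e) =
      innerLevelsRef (inputs Dt) a₀ hadm e (LD Dt e) rfl rfl (hT e)
        (hPL_inner (inputs Dt) a₀ hadm (LD Dt) (fun _ => rfl) hRK e) := rfl

set_option maxHeartbeats 4000000 in
theorem circleInputsND_u_outer (e : Crossing (chartDataModular B hB hqM)) :
    ((circleInputsND Dt a₀ hadm hT hRK).ch (outer (inputs Dt) a₀ hadm e)).u =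
      annulusCoord Dt e := rfl

set_option maxHeartbeats 4000000 in
theorem circleInputsND_u_inner (e : Crossing (chartDataModular B hB hqM)) :
    ((circleInputsND Dt a₀ hadm hT hRK).ch (inner (inputs Dt) a₀ hadm e)).u =
      (a₀ e)⁻¹ • annulusCoord Dt e := rfl

end Abstract

/-! #### Main's named inputs `modularData_final` -/

section Final

variable (B hB hqM)

/-- main's named inputs of the two-component model of `X₀(qM)` at `q` -/
abbrev DtF : ModularData M q B hB hqM := modularData_final B hB hqM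

set_option maxHeartbeats 4000000 in
/-- `hT` for main's levels -/
theorem hT_F (e : Crossing (chartDataModular B hB hqM)) (S : (DtF B hB hqM).ι e)
    (P : Place Kb (Fb (M * q))) (hc : CentredAt B ((LD (DtF B hB hqM) e).level S).R P) :
    P ∈ tube (setup (DtF B hB hqM)) e :=
  hT_modular_final B hB hqM (nonempty_crossing (DtF B hB hqM)) e S P hc

set_option maxHeartbeats 4000000 in
/-- `hRK` for main's levels -/
theorem hRK_F (e : Crossing (chartDataModular B hB hqM)) (S : (DtF B hB hqM).ι e) :
    ∀ y ∈ ((LD (DtF B hB hqM) e).level S).R,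
      y ∈ FKs (M * q) ((LD (DtF B hB hqM) e).level S).K' :=
  hRK_modular_final B hB hqM (nonempty_crossing (DtF B hB hqM)) e S

variable (a₀ : Crossing (chartDataModular B hB hqM) → Kb)

set_option maxHeartbeats 4000000 in
/-- **The levels of every node of `S'ref`** of the modular curve on main. -/
def levelsM (hadm : ∀ e, (inputs (DtF B hB hqM)).adm e (a₀ e)) :=
  levelsD (DtF B hB hqM) a₀ hadm (hT_F B hB hqM) (hRK_F B hB hqM)

set_option maxHeartbeats 4000000 in
/-- **The branch data of every node of `S'ref`** of the modular curve on main. -/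
theorem branchM (hadm : ∀ e, (inputs (DtF B hB hqM)).adm e (a₀ e)) :
    ∀ n, BranchDataN (srefM (DtF B hB hqM) a₀ hadm) n (levelsM B hB hqM a₀ hadm n) :=
  branchD (DtF B hB hqM) a₀ hadm (hT_F B hB hqM) (hRK_F B hB hqM)

set_option maxHeartbeats 4000000 in
/-- **The annulus charts of `S'ref`** of the modular curve on main. -/
def circleInputsNM (hadm : ∀ e, (inputs (DtF B hB hqM)).adm e (a₀ e)) :
    CircleInputsN (srefM (DtF B hB hqM) a₀ hadm) :=
  circleInputsND (DtF B hB hqM) a₀ hadm (hT_F B hB hqM) (hRK_F B hB hqM)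

set_option maxHeartbeats 4000000 in
/-- **The annulus charts of `S'ref_a`.** -/
def circleInputsNA (h : IsGaugeA (DtF B hB hqM) a₀) :
    CircleInputsN (srefA (DtF B hB hqM) a₀ h) :=
  circleInputsNM B hB hqM a₀ h.adm

set_option maxHeartbeats 4000000 in
/-- **The annulus charts of `S'ref_b`.** -/
def circleInputsNB (h : IsGaugeB (DtF B hB hqM) a₀) :
    CircleInputsN (srefB (DtF B hB hqM) a₀ h) :=
  circleInputsNM B hB hqM a₀ h.adm

end Final

end Modular

end Fermat.Agent.BR3.SubAnnChart
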